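/-
Moonshot M1 (S13), (PF-3): asymptotics at infinity of the multiplication-by-`n` rational functions
`ent_r W n` (helper3, Lib/EN/Rec): numerator of degree `n²`, denominator of degree `n² − 1`, and
(the denominator being monic by Mathlib's normalisation) leading coefficient `1/n²` of the
numerator.  Obtained by identifying `ent_r W n` with the quotient `a_n / b_n` of helper4's
multiplication pairs (Lib/EN/MulRec: coprime, `a_n` monic of degree `n²`, `b_n` of degree `n² − 1`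
with leading coefficient `n²`):  `ptm_r_eq_div : ent_r W n = a_n / b_n`.
-/
import Mathlib
import Fermat.Agent.Lib.EN.Rec
import Fermat.Agent.Lib.EN.MulRec

set_option autoImplicit false
set_option linter.unusedVariables false
set_option linter.unusedSectionVars false

namespace Fermat.Agent.Lib.Mz

open Polynomial Fermat.Agent.Lib.EN

variable {K : Type*} [Field K] (W : WeierstrassCurve K)

local notation "φ" => algebraMap K[X] (RatFunc K)

omit W in
lemma ptm_phi_X : φ (X : K[X]) = RatFunc.X := RatFunc.algebraMap_X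

omit W in
lemma ptm_phi_C (c : K) : φ (C c) = algebraMap K (RatFunc K) c := by
  rw [RatFunc.algebraMap_C]; rfl

/-- homogeneity of `U`: `U(a, b; X, 1) = b² (a/b − X)²` -/
lemma ptm_phi_UX (a b : K[X]) (hb : φ b ≠ 0) :
    φ (enc_UX a b) = (φ b) ^ 2 * (φ a / φ b - RatFunc.X) ^ 2 := by
  unfold enc_UX enc_Uh
  simp only [map_pow, map_sub, map_mul, map_one, ptm_phi_X]
  field_simp

/-- homogeneity of `V`: `V(a, b; X, 1) = b² V(a/b, X)` -/
lemma ptm_phi_VX (a b : K[X]) (hb : φ b ≠ 0) :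
    φ (enc_VX W a b) = (φ b) ^ 2 * ent_V W (φ a / φ b) RatFunc.X := by
  unfold enc_VX enc_Vh ent_V
  simp only [map_add, map_pow, map_mul, map_one, map_ofNat, ptm_phi_X, ptm_phi_C]
  field_simp

/-- **The two descriptions of multiplication by `n` on abscissae agree**:
`ent_r W n = a_n / b_n`. -/
theorem ptm_r_eq_div [IsAlgClosed K] [CharZero K] (hΔ : W.Δ ≠ 0) (n : ℕ) (hn : 1 ≤ n) :
    ent_r W n = φ (enc_a W n) / φ (enc_b W n) := by
  have hbne : ∀ k : ℕ, 0 < k → φ (enc_b W k) ≠ 0 := by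
    intro k hk
    apply RatFunc.algebraMap_ne_zero
    intro h
    have := (enc_Inv_all W hΔ k).1.2.2.2.2
    rw [h, leadingCoeff_zero] at this
    have hk' : ((k : ℕ) : K) ≠ 0 := Nat.cast_ne_zero.mpr hk.ne'
    exact pow_ne_zero 2 hk' this.symm
  suffices hboth : ∀ m : ℕ, ent_r W (m + 1) = φ (enc_a W (m + 1)) / φ (enc_b W (m + 1)) ∧
      ent_r W (m + 2) = φ (enc_a W (m + 2)) / φ (enc_b W (m + 2)) by
    obtain ⟨m, rfl⟩ : ∃ m, n = m + 1 := ⟨n - 1, by omega⟩
    exact (hboth m).1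
  intro m
  induction m with
  | zero =>
    refine ⟨?_, ?_⟩
    · show ent_r W 1 = φ (enc_a W 1) / φ (enc_b W 1)
      rw [ent_r_one, enc_a_one, enc_b_one, map_one, div_one, ptm_phi_X]
    · show ent_r W 2 = φ (enc_a W 2) / φ (enc_b W 2)
      rw [ent_r_two, enc_a_two, enc_b_two]
      unfold enc_WX enc_VX enc_Wh enc_Vh ent_W ent_V
      simp only [map_add, map_sub, map_pow, map_mul, map_one, map_ofNat, ptm_phi_X, ptm_phi_C]
      congr 1 <;> ring
  | succ m ih =>
    obtain ⟨h1, h2⟩ := ih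
    refine ⟨h2, ?_⟩
    show ent_r W (m + 3) = φ (enc_a W (m + 3)) / φ (enc_b W (m + 3))
    obtain ⟨hU, hV, -⟩ := (enc_Inv_all W hΔ (m + 1)).2.2
    have hb1 := hbne (m + 1) (Nat.succ_pos m)
    have hb2 := hbne (m + 2) (Nat.succ_pos _)
    have hb3 := hbne (m + 3) (Nat.succ_pos _)
    have eU := ptm_phi_UX (enc_a W (m + 2)) (enc_b W (m + 2)) hb2
    have eV := ptm_phi_VX W (enc_a W (m + 2)) (enc_b W (m + 2)) hb2
    rw [show m + 1 + 1 = m + 2 from rfl] at hU hV
    rw [show m + 1 + 2 = m + 3 from rfl] at hU hV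
    rw [hU, map_mul] at eU
    rw [hV, map_add, map_mul, map_mul] at eV
    have hUne : (φ (enc_a W (m + 2)) / φ (enc_b W (m + 2)) - RatFunc.X) ^ 2 ≠ 0 := by
      intro h0
      rw [h0, mul_zero] at eU
      exact mul_ne_zero hb3 hb1 eU
    rw [ent_r_succ, h1, h2]
    have e1 : ent_V W (φ (enc_a W (m + 2)) / φ (enc_b W (m + 2))) RatFunc.X
        = (φ (enc_a W (m + 3)) * φ (enc_b W (m + 1)) + φ (enc_a W (m + 1)) * φ (enc_b W (m + 3)))
          / (φ (enc_b W (m + 2))) ^ 2 := by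
      rw [eV]; field_simp
    have e2 : (φ (enc_a W (m + 2)) / φ (enc_b W (m + 2)) - RatFunc.X) ^ 2
        = (φ (enc_b W (m + 3)) * φ (enc_b W (m + 1))) / (φ (enc_b W (m + 2))) ^ 2 := by
      rw [eU]; field_simp
    rw [e1, e2]
    field_simp
    ring

/-- **(PF-3)** degrees and leading coefficient of `ent_r W n`. -/
theorem ptm_r_asym [IsAlgClosed K] [CharZero K] [W.IsElliptic] (n : ℕ) (hn : 1 ≤ n) :
    (ent_r W n).num.natDegree = n ^ 2 ∧ (ent_r W n).denom.natDegree = n ^ 2 - 1 ∧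
      (ent_r W n).num.leadingCoeff * (n : K) ^ 2 = 1 := by
  have hΔ : W.Δ ≠ 0 := (WeierstrassCurve.IsElliptic.isUnit (W := W)).ne_zero
  obtain ⟨hcop, hmon, hda, hdb, hlc⟩ := (enc_Inv_all W hΔ n).1
  set a := enc_a W n with ha
  set b := enc_b W n with hb
  set ρ := ent_r W n with hρ
  have hb0 : b ≠ 0 := by
    intro h
    rw [h, leadingCoeff_zero] at hlc
    have hk' : ((n : ℕ) : K) ≠ 0 := Nat.cast_ne_zero.mpr (by omega)
    exact pow_ne_zero 2 hk' hlc.symm
  have ha0 : a ≠ 0 := hmon.ne_zero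
  have hrel : ρ.num * b = a * ρ.denom :=
    (RatFunc.num_mul_eq_mul_denom_iff hb0).mpr (ptm_r_eq_div W hΔ n hn)
  have hcop' := RatFunc.isCoprime_num_denom ρ
  have h1 : ρ.num ∣ a := by
    have : ρ.num ∣ a * ρ.denom := ⟨b, hrel.symm⟩
    exact hcop'.dvd_of_dvd_mul_right this
  have h2 : a ∣ ρ.num := by
    have : a ∣ ρ.num * b := ⟨ρ.denom, hrel⟩
    exact hcop.dvd_of_dvd_mul_right this
  have hdnum : ρ.num.natDegree = n ^ 2 := by
    rw [Polynomial.natDegree_eq_of_degree_eq (degree_eq_degree_of_associated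
      (associated_of_dvd_dvd h1 h2)), hda]
  have hnum0 : ρ.num ≠ 0 := fun h => ha0 (by rw [h] at h1; exact zero_dvd_iff.mp h1)
  have hden0 : ρ.denom ≠ 0 := RatFunc.denom_ne_zero ρ
  have hdeg := congrArg natDegree hrel
  rw [natDegree_mul hnum0 hb0, natDegree_mul ha0 hden0, hdnum, hda, hdb] at hdeg
  have hlcs := congrArg leadingCoeff hrel
  rw [leadingCoeff_mul, leadingCoeff_mul, hlc, hmon.leadingCoeff,
    (RatFunc.monic_denom ρ).leadingCoeff, mul_one] at hlcs
  exact ⟨hdnum, by omega, hlcs⟩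

end Fermat.Agent.Lib.Mz
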