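/-
Moonshot M1 (S13), package (D2): **`G_ℚ` acts transitively on the valuation subrings of `Q̄` over
a prime `ℓ`**, and the resulting conjugacy of inertia / decomposition subgroups
(in the Prelude's valuation-subring language).
-/
import Mathlib
import Fermat.Agent.Lib.CFT.RamBridge
import Fermat.Agent.Lib.CFT.RamBridgeGal
import Fermat.Agent.Lib.PT.GLevelField

set_option autoImplicit false
set_option linter.unusedVariables false
set_option linter.unusedSectionVars false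
set_option linter.style.haveILetI false

namespace Fermat.Agent.Lib.Mz

open NumberField Fermat.Agent.Lib.CFT Fermat.Agent.Lib.Frey Fermat.Agent.Lib.PT
open scoped Pointwise

local notation "Qbar" => AlgebraicClosure ℚ
local notation "GQ" => (AlgebraicClosure ℚ ≃ₐ[ℚ] AlgebraicClosure ℚ)

attribute [local instance] cfg_isGalois_QBar

/-- An integer lies in the maximal ideal of a valuation subring over `ℓ` iff `ℓ` divides it. -/
lemma ptm_intCast_mem_nonunits_iff {ℓ : ℕ} (hℓ : ℓ.Prime) (A : ValuationSubring Qbar)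
    (hA : A.LiesOverPrime ℓ) (z : ℤ) : (z : Qbar) ∈ A.nonunits ↔ (ℓ : ℤ) ∣ z := by
  have hA' : (ℓ : Qbar) ∈ A.nonunits := hA
  constructor
  · intro hz
    by_contra hnd
    have h1 := ford_val_intCast_of_not_dvd (A := A) hℓ hA' hnd
    rw [A.mem_nonunits_iff, h1] at hz
    exact lt_irrefl _ hz
  · rintro ⟨m, rfl⟩
    rw [A.mem_nonunits_iff]
    push_cast
    rw [map_mul]
    exact mul_lt_one_of_nonneg_of_lt_one_left zero_le (A.mem_nonunits_iff.mp hA')
      ((A.valuation_le_one_iff _).2 (intCast_mem A m))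

/-- The centre of a valuation subring over `ℓ` lies over `ℓ`. -/
lemma ptm_center_under_eq {ℓ : ℕ} (hℓ : ℓ.Prime) (A A' : ValuationSubring Qbar)
    (hA : A.LiesOverPrime ℓ) (hA' : A'.LiesOverPrime ℓ) :
    (cfg_center A).under (𝓞 ℚ) = (cfg_center A').under (𝓞 ℚ) := by
  ext x
  obtain ⟨z, rfl⟩ : ∃ z : ℤ, (z : 𝓞 ℚ) = x := by
    refine ⟨Rat.ringOfIntegersEquiv x, ?_⟩
    have : ((Rat.ringOfIntegersEquiv x : ℤ) : 𝓞 ℚ) =
        Rat.ringOfIntegersEquiv.symm (Rat.ringOfIntegersEquiv x) := by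
      simp
    rw [this, RingEquiv.symm_apply_apply]
  rw [Ideal.under_def, Ideal.mem_comap, Ideal.mem_comap, map_intCast, cfg_mem_center_iff,
    cfg_mem_center_iff, map_intCast, ptm_intCast_mem_nonunits_iff hℓ A hA,
    ptm_intCast_mem_nonunits_iff hℓ A' hA']

/-- the centre of `g⁻¹(A)` is `g⁻¹ • centre A`. -/
lemma ptm_center_comapVS (A : ValuationSubring Qbar) (g : GQ) :
    cfg_center (pta_comapVS A g) = g⁻¹ • cfg_center A := by
  ext b
  rw [Ideal.mem_pointwise_smul_iff_inv_smul_mem, inv_inv, cfg_mem_center_iff, cfg_mem_center_iff,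
    pta_mem_nonunits_comapVS]
  rfl

/-- **Transitivity**: any two valuation subrings of `Q̄` over `ℓ` are conjugate under `G_ℚ`. -/
theorem ptm_exists_comapVS_eq {ℓ : ℕ} (hℓ : ℓ.Prime) (A A' : ValuationSubring Qbar)
    (hA : A.LiesOverPrime ℓ) (hA' : A'.LiesOverPrime ℓ) : ∃ g : GQ, A' = pta_comapVS A g := by
  obtain ⟨g, hg⟩ := cfg_exists_smul_eq (Ω := Qbar) ℚ (cfg_center A) (cfg_center A')
    (ptm_center_under_eq hℓ A A' hA hA')
  refine ⟨g⁻¹, ?_⟩
  have h1 : cfg_center (pta_comapVS A g⁻¹) = cfg_center A' := by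
    rw [ptm_center_comapVS, inv_inv, hg]
  have hA'' : ((ℓ : Qbar)) ∈ A'.nonunits := hA'
  exact cfg_eq_of_center_eq hℓ hA'' h1

/-- `g(g⁻¹(A)) = A`. -/
lemma ptm_comapVS_comapVS_inv (A : ValuationSubring Qbar) (g : GQ) :
    pta_comapVS (pta_comapVS A g) g⁻¹ = A := by
  ext x
  rw [pta_mem_comapVS, pta_mem_comapVS]
  show g (g⁻¹ x) ∈ A ↔ x ∈ A
  rw [show g (g⁻¹ x) = x from g.apply_symm_apply x]

/-- Conjugation of decomposition groups: `σ ∈ D(A) ⇒ g⁻¹ σ g ∈ D(g⁻¹ A)`. -/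
theorem ptm_conj_mem_decomposition (A : ValuationSubring Qbar) (g σ : GQ)
    (hσ : σ ∈ A.decompositionSubgroup ℚ) :
    g⁻¹ * σ * g ∈ (pta_comapVS A g).decompositionSubgroup ℚ := by
  have hD' : σ⁻¹ ∈ A.decompositionSubgroup ℚ := inv_mem hσ
  have h1 := ford_decomposition_mem A σ hσ
  have h2 := ford_decomposition_mem A σ⁻¹ hD'
  apply cfg_mem_decompositionSubgroup
  · intro a ha
    rw [pta_mem_comapVS] at ha ⊢
    show g (g⁻¹ (σ (g a))) ∈ A
    rw [show g (g⁻¹ (σ (g a))) = σ (g a) from g.apply_symm_apply _]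
    exact h1 _ ha
  · intro a ha
    rw [pta_mem_comapVS] at ha ⊢
    have : (g⁻¹ * σ * g).symm a = g⁻¹ (σ⁻¹ (g a)) := by
      show (g⁻¹ * σ * g)⁻¹ a = _
      rw [mul_inv_rev, mul_inv_rev, inv_inv, ← mul_assoc]
      rfl
    rw [this, show g (g⁻¹ (σ⁻¹ (g a))) = σ⁻¹ (g a) from g.apply_symm_apply _]
    exact h2 _ ha

/-- **Conjugacy of inertia subgroups over `ℓ`**: every element of an inertia subgroup over `ℓ` is
conjugate to an element of the inertia subgroup of a fixed valuation subring over `ℓ`. -/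
theorem ptm_inertia_conj {ℓ : ℕ} (hℓ : ℓ.Prime) (A A' : ValuationSubring Qbar)
    (hA : A.LiesOverPrime ℓ) (hA' : A'.LiesOverPrime ℓ) :
    ∃ g : GQ, ∀ τ ∈ A'.inertiaSubgroupIn ℚ, g * τ * g⁻¹ ∈ A.inertiaSubgroupIn ℚ := by
  obtain ⟨g, rfl⟩ := ptm_exists_comapVS_eq hℓ A A' hA hA'
  refine ⟨g, fun τ hτ => ?_⟩
  have := pta_conj_mem_inertia (pta_comapVS A g) g⁻¹ τ hτ
  rwa [ptm_comapVS_comapVS_inv, inv_inv] at this

/-- **Conjugacy of decomposition subgroups over `ℓ`**. -/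
theorem ptm_decomposition_conj {ℓ : ℕ} (hℓ : ℓ.Prime) (A A' : ValuationSubring Qbar)
    (hA : A.LiesOverPrime ℓ) (hA' : A'.LiesOverPrime ℓ) :
    ∃ g : GQ, (∀ τ ∈ A'.inertiaSubgroupIn ℚ, g * τ * g⁻¹ ∈ A.inertiaSubgroupIn ℚ) ∧
      ∀ τ ∈ A'.decompositionSubgroup ℚ, g * τ * g⁻¹ ∈ A.decompositionSubgroup ℚ := by
  obtain ⟨g, rfl⟩ := ptm_exists_comapVS_eq hℓ A A' hA hA'
  refine ⟨g, fun τ hτ => ?_, fun τ hτ => ?_⟩
  · have := pta_conj_mem_inertia (pta_comapVS A g) g⁻¹ τ hτ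
    rwa [ptm_comapVS_comapVS_inv, inv_inv] at this
  · have := ptm_conj_mem_decomposition (pta_comapVS A g) g⁻¹ τ hτ
    rwa [ptm_comapVS_comapVS_inv, inv_inv] at this

end Fermat.Agent.Lib.Mz
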