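/-
Moonshot M1 (S13): existence of a place of `Q̄` over every prime, in the Prelude's vocabulary
(thin wrapper around `Lib/Frobenius/Exists`), and the one-place form of "inertia is contained in a
normal subgroup".
-/
import Mathlib
import Fermat.Agent.Lib.Frobenius.Exists
import Fermat.Agent.Lib.Mz.ValConj

set_option autoImplicit false
set_option linter.unusedVariables false

namespace Fermat.Agent.Lib.Mz

local notation "Qbar" => AlgebraicClosure ℚ
local notation "GQ" => (AlgebraicClosure ℚ ≃ₐ[ℚ] AlgebraicClosure ℚ)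

/-- For every prime `ℓ` there is a valuation subring of `Q̄` lying over `ℓ`. -/
theorem ptm_exists_liesOverPrime (ℓ : ℕ) (hℓ : ℓ.Prime) :
    ∃ A : ValuationSubring Qbar, A.LiesOverPrime ℓ :=
  Fermat.Agent.Lib.Frobenius.exists_natCast_mem_nonunits (L := Qbar) ℓ hℓ

/-- If a normal subgroup contains the inertia subgroup of ONE valuation subring over `ℓ`, it
contains the inertia subgroups of all of them. -/
theorem ptm_inertia_le_of_one {ℓ : ℕ} (hℓ : ℓ.Prime) (H : Subgroup GQ) [hH : H.Normal]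
    (A₀ : ValuationSubring Qbar) (hA₀ : A₀.LiesOverPrime ℓ) (h : A₀.inertiaSubgroupIn ℚ ≤ H)
    (A : ValuationSubring Qbar) (hA : A.LiesOverPrime ℓ) : A.inertiaSubgroupIn ℚ ≤ H := by
  intro τ hτ
  obtain ⟨g, hg⟩ := ptm_inertia_conj hℓ A₀ A hA₀ hA
  have h1 : g * τ * g⁻¹ ∈ H := h (hg τ hτ)
  have h2 := hH.conj_mem _ h1 g⁻¹
  have h3 : g⁻¹ * (g * τ * g⁻¹) * g⁻¹⁻¹ = τ := by group
  rwa [h3] at h2

end Fermat.Agent.Lib.Mz
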