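/-
Moonshot M1 (S13), prime-2 package, ABSTRACT layer (port of `Lib/Frey/Abstract*` to residue
characteristic `2`): for a Weierstrass model `W` over `(K, v)` with `v a₁ = 0`, `v a₃ > 0`,
integral coefficients and `v 2 > 0` (e.g. `Y² + XY = X³ + a₂X² + a₄X`), and `σ` preserving `v`,
trivial modulo the maximal ideal and fixing the coefficients:
* `ptm_fixed_of_sub_inE0_two` : if `p • x = 0` (`v p = 0`) and `x − j • P₀ ∈ E₀` for a `σ`-fixed
  point `P₀`, then `σ x = x`;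
* `ptm_main_mult_two` : from (L3) at `2` (hypothesis shape `ptm_HypL3_two`) and a `σ`-fixed point of
  level `2m/p`, `σ` fixes every `p`-torsion point — the conclusion of the abstract core
  `ftw_IfaceMult2` of the prime-2 package.
Inputs: (L1) at `2` = helper7's `ftg_fab_sigma_sub_inE1_two`, (L2) = helper5's `kwg_L2`.
-/
import Mathlib
import Fermat.Agent.Lib.Frey.Defs
import Fermat.Agent.Lib.Frey.Abstract
import Fermat.Agent.Lib.F2.DiffTwo
import Fermat.Agent.Lib.KW.GenE1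

set_option autoImplicit false
set_option linter.unusedVariables false
set_option linter.unusedSectionVars false

namespace Fermat.Agent.Lib.Mz

open WeierstrassCurve WeierstrassCurve.Affine WeierstrassCurve.Affine.Point
open Fermat.Agent.Lib.Frey Fermat.Agent.Lib.F2 Fermat.Agent.Lib.KW

variable {K : Type*} [Field K] [DecidableEq K] (v : AddValuation K (WithTop ℚ))

/-- **Abstract inertia theorem, residue characteristic `2`.** -/
theorem ptm_fixed_of_sub_inE0_two {W : WeierstrassCurve K} (ha1 : v W.a₁ = 0) (ha2 : 0 ≤ v W.a₂)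
    (ha3 : 0 < v W.a₃) (ha4 : 0 ≤ v W.a₄) (ha6 : 0 ≤ v W.a₆) (h2 : 0 < v (2 : K))
    (σ : K →+* K) (hW : W.map σ = W) (hσv : ∀ a, v (σ a) = v a)
    (hσI : ∀ a, 0 ≤ v a → 0 < v (σ a - a)) {p : ℕ} (hp : v (p : K) = 0)
    {x P₀ : W.toAffine.Point} (hP₀ : fab_sigma σ W hW P₀ = P₀) (hx : p • x = 0) (j : ℤ)
    (hj : fl_InE0 v (x - j • P₀)) : fab_sigma σ W hW x = x := by
  have L2 : fab_HypL2 v W p := kwg_L2 v ha1.ge ha2 ha3.le ha4 ha6 hp
  set s := fab_sigma σ W hW with hs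
  have hD : s x - x = s (x - j • P₀) - (x - j • P₀) := by
    rw [map_sub, map_zsmul, hP₀]; abel
  have hE1 : fl_InE1 v (s x - x) := by
    rw [hD]
    rcases hj with h0 | ⟨a, b, h, hab, ha⟩
    · rw [h0, _root_.map_zero, sub_zero]; left; rfl
    · rw [hab]
      rcases lt_or_eq_of_le ha with ha' | ha'
      · have h1 : fl_InE1 v (Point.some a b h) := Or.inr ⟨a, b, h, rfl, ha'⟩
        exact L2.sub_mem _ _ (fab_sigma_mem_E1 hW hσv h1) h1
      · exact ftg_fab_sigma_sub_inE1_two v ha1 ha2 ha3 ha4 ha6 h2 σ hW hσv hσI h ha'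
  have hp' : p • (s x - x) = 0 := by
    rw [smul_sub, ← map_nsmul, hx, _root_.map_zero, sub_zero]
  exact sub_eq_zero.mp (L2.torsion _ hE1 hp')

omit [DecidableEq K] in
lemma ptm_ftg_curve_map (σ : K →+* K) {a₂ a₄ : K} (h2 : σ a₂ = a₂) (h4 : σ a₄ = a₄) :
    (ftg_curve a₂ a₄).map σ = ftg_curve a₂ a₄ := by
  ext <;> simp [ftg_curve, WeierstrassCurve.map, h2, h4]

/-- Hypothesis shape of (L3) at `2`: a `p`-torsion point of `Y² + XY = X³ + a₂X² + a₄X`
(`v a₄ = m`) differs from a multiple of a point of level `2m/p` by a point of `E₀`. -/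
def ptm_HypL3_two (a₂ a₄ : K) (m : ℚ) (p : ℕ) : Prop :=
  ∀ (x P0 : (ftg_curve a₂ a₄).toAffine.Point), p • x = 0 →
    ∀ (X0 Y0 : K) (h0 : (ftg_curve a₂ a₄).toAffine.Nonsingular X0 Y0), P0 = .some X0 Y0 h0 →
      v X0 = ((2 * m / p : ℚ) : WithTop ℚ) → ∃ j : ℤ, fl_InE0 v (x - j • P0)

/-- **Multiplicative case at `2`.** -/
theorem ptm_main_mult_two (σ : K ≃+* K) (hσv : ∀ a, v (σ a) = v a)
    (hσI : ∀ a, 0 ≤ v a → 0 < v (σ a - a)) (a₂ a₄ : K) (hσa₂ : σ a₂ = a₂) (hσa₄ : σ a₄ = a₄)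
    (m : ℚ) (ha2 : 0 ≤ v a₂) (ha4 : 0 ≤ v a₄) (h2 : 0 < v (2 : K)) (p : ℕ)
    (hp : v (p : K) = 0) (L3 : ptm_HypL3_two v a₂ a₄ m p)
    (X₀ Y₀ : K) (h₀ : (ftg_curve a₂ a₄).toAffine.Nonsingular X₀ Y₀) (hX₀ : σ X₀ = X₀)
    (hY₀ : σ Y₀ = Y₀) (hvX₀ : v X₀ = ((2 * m / p : ℚ) : WithTop ℚ))
    (X Y : K) (h : (ftg_curve a₂ a₄).toAffine.Nonsingular X Y)
    (hx : p • (Point.some X Y h) = 0) : σ X = X ∧ σ Y = Y := by
  have hW : (ftg_curve a₂ a₄).map (σ : K →+* K) = ftg_curve a₂ a₄ :=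
    ptm_ftg_curve_map (σ : K →+* K) (by simpa using hσa₂) (by simpa using hσa₄)
  obtain ⟨j, hj⟩ := L3 (Point.some X Y h) (Point.some X₀ Y₀ h₀) hx X₀ Y₀ h₀ rfl hvX₀
  have hP₀ : fab_sigma (σ : K →+* K) (ftg_curve a₂ a₄) hW (Point.some X₀ Y₀ h₀) =
      Point.some X₀ Y₀ h₀ :=
    fab_sigma_eq_of_coords hW (by simpa using hX₀) (by simpa using hY₀)
  have hfix := ptm_fixed_of_sub_inE0_two v (W := ftg_curve a₂ a₄)
    (by rw [ftg_curve_a₁, AddValuation.map_one]) ha2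
    (by rw [ftg_curve_a₃, AddValuation.map_zero]; exact WithTop.coe_lt_top 0) ha4
    (by rw [ftg_curve_a₆, AddValuation.map_zero]; exact le_top) h2 (σ : K →+* K) hW
    (fun a => by simpa using hσv a) (fun a ha => by simpa using hσI a ha) hp hP₀ hx j hj
  simpa using fab_coords_of_sigma_eq hW hfix

end Fermat.Agent.Lib.Mz
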