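/-
Moonshot M1 (S13), package (D1): **Minkowski for characters of `G_ℚ`**.
A normal open subgroup of `G_ℚ = Gal(Q̄/ℚ)` containing all inertia subgroups (at all primes, in
the Prelude's valuation-subring language) is everything; a character of `G_ℚ` with open kernel
which is trivial on all inertia subgroups is trivial.
Inputs: the ramification bridge of `Lib/CFT` (`cfg_unram_of_galois`), Mathlib's
`not_dvd_discr_iff_forall_liesOver` and the Hermite–Minkowski bound `abs_discr_gt_two`.
-/
import Mathlib
import Fermat.Agent.Lib.CFT.RamBridge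

set_option autoImplicit false
set_option linter.unusedVariables false
set_option linter.unusedSectionVars false
set_option linter.style.haveILetI false

noncomputable section

namespace Fermat.Agent.Lib.Mz

open NumberField Fermat.Agent.Lib.CFT

local notation "Qbar" => AlgebraicClosure ℚ
local notation "GQ" => (AlgebraicClosure ℚ ≃ₐ[ℚ] AlgebraicClosure ℚ)

/-- unramified over `𝓞 ℚ` implies unramified over `ℤ`. -/
theorem ptm_isUnramifiedAt_int {L : Type*} [Field L] [NumberField L] (Q : Ideal (𝓞 L)) [Q.IsPrime]
    (h : Algebra.IsUnramifiedAt (𝓞 ℚ) Q) : Algebra.IsUnramifiedAt ℤ Q := by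
  have h1 : Algebra.FormallyUnramified ℤ (𝓞 ℚ) := by
    refine Algebra.FormallyUnramified.of_surjective (Algebra.ofId ℤ (𝓞 ℚ)) ?_
    intro x
    refine ⟨Rat.ringOfIntegersEquiv x, ?_⟩
    have : (Algebra.ofId ℤ (𝓞 ℚ)) (Rat.ringOfIntegersEquiv x) =
        Rat.ringOfIntegersEquiv.symm (Rat.ringOfIntegersEquiv x) := by
      simp
    rw [this, RingEquiv.symm_apply_apply]
  unfold Algebra.IsUnramifiedAt at h ⊢
  exact Algebra.FormallyUnramified.comp ℤ (𝓞 ℚ) _

/-- **Minkowski**: a number field unramified at all finite primes is `ℚ`. -/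
theorem ptm_finrank_eq_one_of_unram (L : Type*) [Field L] [NumberField L]
    (h : cft_Unram ℚ L) : Module.finrank ℚ L = 1 := by
  by_contra hne
  have hlt : 1 < Module.finrank ℚ L := by
    have := Module.finrank_pos (R := ℚ) (M := L)
    omega
  have hd := abs_discr_gt_two hlt
  have hnu : ¬ IsUnit (discr L) := by
    rw [Int.isUnit_iff_abs_eq]
    intro h1
    rw [h1] at hd
    norm_num at hd
  have hd0 : discr L ≠ 0 := discr_ne_zero L
  obtain ⟨p, hp, hpd⟩ := WfDvdMonoid.exists_irreducible_factor hnu hd0
  have hp' : Prime p := hp.prime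
  have := (not_dvd_discr_iff_forall_liesOver (K := L) (𝒪 := 𝓞 L) hp').mpr ?_
  · exact this hpd
  · intro P hP hlo
    have hPbot : P ≠ ⊥ := by
      intro hb
      have h2 : (Ideal.span {p} : Ideal ℤ) = P.under ℤ := hlo.over
      rw [hb] at h2
      have h3 : (⊥ : Ideal (𝓞 L)).under ℤ = ⊥ := by
        apply Ideal.comap_bot_of_injective
        exact RingHom.injective_int (algebraMap ℤ (𝓞 L))
      rw [h3, Ideal.span_singleton_eq_bot] at h2
      exact hp'.ne_zero h2
    exact ptm_isUnramifiedAt_int P (h P hPbot)

/-- no valuation subring lies over `1`. -/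
theorem ptm_not_liesOverPrime_one (A : ValuationSubring Qbar) : ¬ A.LiesOverPrime 1 := by
  intro h
  unfold ValuationSubring.LiesOverPrime at h
  rw [Nat.cast_one, ValuationSubring.mem_nonunits_iff, map_one] at h
  exact lt_irrefl _ h

/-- **a finite Galois subfield of `Q̄` fixed pointwise by all inertia subgroups is `ℚ`**. -/
theorem ptm_eq_bot_of_inertia_fix (L : IntermediateField ℚ Qbar) [FiniteDimensional ℚ L]
    [IsGalois ℚ L]
    (h : ∀ ℓ : ℕ, ℓ.Prime → ∀ A : ValuationSubring Qbar, A.LiesOverPrime ℓ →
      ∀ σ ∈ A.inertiaSubgroupIn ℚ, ∀ x ∈ L, σ x = x) : L = ⊥ := by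
  haveI hN : NumberField ↥L := ⟨⟩
  have hun : cft_Unram ℚ ↥L := by
    refine cfg_unram (p := 1) (K := ℚ) (L := ↥L) ?_ ?_
    · intro ℓ hℓ _ A hA σ hσ x
      exact h ℓ hℓ A hA σ hσ x x.2
    · intro A hA
      exact absurd hA (ptm_not_liesOverPrime_one A)
  have h1 := ptm_finrank_eq_one_of_unram ↥L hun
  exact IntermediateField.finrank_eq_one_iff.mp h1

/-- the fixed field of a normal subgroup is stable under `G_ℚ`, hence Galois over `ℚ`. -/
theorem ptm_isGalois_fixedField (N : Subgroup GQ) [N.Normal] :
    IsGalois ℚ ↥(IntermediateField.fixedField N) := by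
  haveI : IsGalois ℚ Qbar := cfg_isGalois_QBar
  have key : @Normal ℚ ↥(IntermediateField.fixedField N) _ _
      (IntermediateField.algebra' (IntermediateField.fixedField N)) := by
    rw [IntermediateField.normal_iff_forall_map_le']
    intro σ x hx
    obtain ⟨y, hy, rfl⟩ := hx
    replace hy : y ∈ IntermediateField.fixedField N := hy
    rw [IntermediateField.mem_fixedField_iff] at hy
    rw [IntermediateField.mem_fixedField_iff]
    intro n hn
    have h1 : σ⁻¹ * n * σ ∈ N := by
      have := (inferInstance : N.Normal).conj_mem n hn σ⁻¹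
      rwa [inv_inv] at this
    have h2 := hy _ h1
    have h3 : n (σ y) = σ ((σ⁻¹ * n * σ) y) := by
      simp [AlgEquiv.mul_apply]
    change n (σ y) = σ y
    rw [h3, h2]
  have halg : (IntermediateField.algebra' (IntermediateField.fixedField N) :
      Algebra ℚ ↥(IntermediateField.fixedField N)) = DivisionRing.toRatAlgebra :=
    Subsingleton.elim _ _
  haveI : Normal ℚ ↥(IntermediateField.fixedField N) := halg ▸ key
  exact ⟨⟩

/-- **Minkowski for subgroups**: a normal subgroup of `G_ℚ` containing the fixing subgroup of a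
finite extension (i.e. open) and all inertia subgroups is everything. -/
theorem ptm_subgroup_eq_top (N : Subgroup GQ) [N.Normal] (E : IntermediateField ℚ Qbar)
    [FiniteDimensional ℚ E] (hE : E.fixingSubgroup ≤ N)
    (h : ∀ ℓ : ℕ, ℓ.Prime → ∀ A : ValuationSubring Qbar, A.LiesOverPrime ℓ →
      A.inertiaSubgroupIn ℚ ≤ N) : N = ⊤ := by
  haveI : IsGalois ℚ Qbar := cfg_isGalois_QBar
  set L := IntermediateField.fixedField N with hL
  have hLE : L ≤ E := by
    have h1 : IntermediateField.fixedField N ≤ IntermediateField.fixedField E.fixingSubgroup :=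
      IntermediateField.fixedField_antitone hE
    rwa [InfiniteGalois.fixedField_fixingSubgroup] at h1
  haveI : FiniteDimensional ℚ ↥L := by
    have := IntermediateField.inclusion hLE
    exact FiniteDimensional.of_injective (IntermediateField.inclusion hLE).toLinearMap
      (IntermediateField.inclusion hLE).injective
  haveI : IsGalois ℚ ↥L := ptm_isGalois_fixedField N
  have hbot : L = ⊥ := by
    apply ptm_eq_bot_of_inertia_fix
    intro ℓ hℓ A hA σ hσ x hx
    rw [hL, IntermediateField.mem_fixedField_iff] at hx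
    exact hx σ (h ℓ hℓ A hA hσ)
  rw [eq_top_iff]
  intro σ _
  have h1 : E.fixingSubgroup ≤ N := hE
  -- `σ` agrees on `E` with ... use the finite Galois correspondence through `E`'s closure
  have hclosed : N = L.fixingSubgroup := by
    apply le_antisymm
    · intro n hn
      rw [IntermediateField.mem_fixingSubgroup_iff]
      intro x hx
      rw [hL, IntermediateField.mem_fixedField_iff] at hx
      exact hx n hn
    · -- `N` is open (contains `E.fixingSubgroup`), hence closed, hence Galois-closed
      have hopen : IsOpen (N : Set GQ) := by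
        apply Subgroup.isOpen_mono hE
        exact IntermediateField.fixingSubgroup_isOpen E
      have hcl : IsClosed (N : Set GQ) := Subgroup.isClosed_of_isOpen N hopen
      let Nc : ClosedSubgroup GQ := ⟨N, hcl⟩
      have h2 := InfiniteGalois.fixingSubgroup_fixedField Nc
      intro n hn
      have : n ∈ (IntermediateField.fixedField Nc.toSubgroup).fixingSubgroup := hn
      rw [h2] at this
      exact this
  rw [hclosed, hbot, IntermediateField.mem_fixingSubgroup_iff]
  intro x hx
  obtain ⟨r, rfl⟩ := IntermediateField.mem_bot.1 hx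
  exact σ.commutes r

/-- **Minkowski for characters**: a homomorphism from `G_ℚ` with open kernel which is trivial on
all inertia subgroups is trivial. -/
theorem ptm_hom_eq_one {H : Type*} [Group H] (χ : GQ →* H) (E : IntermediateField ℚ Qbar)
    [FiniteDimensional ℚ E] (hE : ∀ σ ∈ E.fixingSubgroup, χ σ = 1)
    (h : ∀ ℓ : ℕ, ℓ.Prime → ∀ A : ValuationSubring Qbar, A.LiesOverPrime ℓ →
      ∀ σ ∈ A.inertiaSubgroupIn ℚ, χ σ = 1) (σ : GQ) : χ σ = 1 := by
  have htop : χ.ker = ⊤ :=
    ptm_subgroup_eq_top χ.ker E (fun τ hτ => MonoidHom.mem_ker.2 (hE τ hτ))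
      (fun ℓ hℓ A hA τ hτ => MonoidHom.mem_ker.2 (h ℓ hℓ A hA τ hτ))
  have : σ ∈ χ.ker := by rw [htop]; trivial
  exact MonoidHom.mem_ker.1 this

end Fermat.Agent.Lib.Mz

end
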