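/-
Moonshot M1 (S13), package (A): **the abstract assembly**.
`V` a two-dimensional `𝔽_p`-representation of `G_ℚ` of finite level, with the local inputs of the
Frey curve (unramified outside `2p`; `p`-th powers of inertia at `2` act trivially; at `2` a
decomposition-fixed vector forces unramifiedness; at `p` ordinary-type or supersingular-type).
If `V` has a `G_ℚ`-stable line then it has a `G_ℚ`-stable line `N'` with `G_ℚ` acting trivially
on `V/N'` (a "cofixed line").  Uses Minkowski (`ptm_subgroup_eq_top`), conjugacy of inertia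
subgroups (`ptm_inertia_conj`) and the vanishing of admissible extensions (S14).
-/
import Mathlib
import Fermat.Prelude.Def_ExtCitation_AdmissibleExtension_v2
import Fermat.Prelude.Def_ExtCitation_KummerBridge
import Fermat.Agent.Lib.CFT.GalRedLin
import Fermat.Agent.Lib.PT.GLevelTwist
import Fermat.Agent.Lib.Mz.Minkowski
import Fermat.Agent.Lib.Mz.ValConj

set_option autoImplicit false
set_option linter.unusedVariables false
set_option linter.unusedSectionVars false
set_option linter.style.haveILetI false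

namespace Fermat.Agent.Lib.Mz

open ExtCitation Fermat.Agent.Lib.CFT Fermat.Agent.Lib.PT

local notation "Qbar" => AlgebraicClosure ℚ
local notation "GQ" => (AlgebraicClosure ℚ ≃ₐ[ℚ] AlgebraicClosure ℚ)

section linalg

variable {p : ℕ} [Fact p.Prime] {V : Type*} [AddCommGroup V] [Module (ZMod p) V]

lemma ptm_finite_of_card (hV : Nat.card V = p ^ 2) : Finite V :=
  Nat.finite_of_card_ne_zero (by rw [hV]; exact pow_ne_zero _ (Fact.out : p.Prime).ne_zero)

lemma ptm_finrank_eq_two (hV : Nat.card V = p ^ 2) : Module.finrank (ZMod p) V = 2 := by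
  have hp := (Fact.out : p.Prime)
  have := ptm_finite_of_card hV
  have : Module.Finite (ZMod p) V := Module.Finite.of_finite
  have hcardV : Nat.card V = p ^ Module.finrank (ZMod p) V := by
    have := Module.natCard_eq_pow_finrank (K := ZMod p) (V := V)
    rwa [Nat.card_zmod] at this
  exact Nat.pow_right_injective hp.two_le (by show p ^ _ = p ^ 2; rw [← hcardV, hV])

lemma ptm_card_eq_iff_finrank [Finite V] (N : Submodule (ZMod p) V) :
    Nat.card N = p ↔ Module.finrank (ZMod p) N = 1 := by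
  have hp := (Fact.out : p.Prime)
  have : Module.Finite (ZMod p) V := Module.Finite.of_finite
  have hcardC : Nat.card N = p ^ Module.finrank (ZMod p) N := by
    have := Module.natCard_eq_pow_finrank (K := ZMod p) (V := N)
    rwa [Nat.card_zmod] at this
  rw [hcardC]
  constructor
  · intro h
    exact Nat.pow_right_injective hp.two_le (by show p ^ _ = p ^ 1; rw [h, pow_one])
  · intro h; rw [h, pow_one]

/-- A proper nonzero subspace of a plane over `𝔽_p` has `p` elements. -/
theorem ptm_card_line (hV : Nat.card V = p ^ 2) (N : Submodule (ZMod p) V) (h0 : N ≠ ⊥)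
    (h1 : N ≠ ⊤) : Nat.card N = p := by
  have := ptm_finite_of_card hV
  have : Module.Finite (ZMod p) V := Module.Finite.of_finite
  rw [ptm_card_eq_iff_finrank]
  have h2 := ptm_finrank_eq_two hV
  have h3 : Module.finrank (ZMod p) N < Module.finrank (ZMod p) V :=
    Submodule.finrank_lt h1
  have h4 : Module.finrank (ZMod p) N ≠ 0 := fun h => h0 (Submodule.finrank_eq_zero.1 h)
  omega

/-- Two distinct lines of a plane are complementary. -/
theorem ptm_isCompl_of_ne (hV : Nat.card V = p ^ 2) (N T : Submodule (ZMod p) V)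
    (hN : Nat.card N = p) (hT : Nat.card T = p) (hne : N ≠ T) : IsCompl N T := by
  have := ptm_finite_of_card hV
  have : Module.Finite (ZMod p) V := Module.Finite.of_finite
  rw [ptm_card_eq_iff_finrank] at hN hT
  have h2 := ptm_finrank_eq_two hV
  have hinf : N ⊓ T = ⊥ := by
    by_contra hcon
    have h3 : Module.finrank (ZMod p) ↥(N ⊓ T) ≠ 0 :=
      fun h => hcon (Submodule.finrank_eq_zero.1 h)
    have h4 : Module.finrank (ZMod p) ↥(N ⊓ T) ≤ Module.finrank (ZMod p) N :=
      Submodule.finrank_mono inf_le_left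
    have h5 : Module.finrank (ZMod p) ↥(N ⊓ T) ≤ Module.finrank (ZMod p) T :=
      Submodule.finrank_mono inf_le_right
    have e1 : N ⊓ T = N := Submodule.eq_of_le_of_finrank_eq inf_le_left (by omega)
    have e2 : N ⊓ T = T := Submodule.eq_of_le_of_finrank_eq inf_le_right (by omega)
    exact hne (e1.symm.trans e2)
  have hsup : N ⊔ T = ⊤ := by
    have h3 := Submodule.finrank_sup_add_finrank_inf_eq N T
    rw [hinf, finrank_bot, add_zero, hN, hT] at h3
    apply Submodule.eq_top_of_finrank_eq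
    rw [h3, h2]
  exact ⟨disjoint_iff.2 hinf, codisjoint_iff.2 hsup⟩

/-- A line is generated by any of its nonzero elements. -/
theorem ptm_exists_generator (N : Submodule (ZMod p) V) (hN : Nat.card N = p) :
    ∃ n₀ ∈ N, n₀ ≠ 0 ∧ ∀ x ∈ N, ∃ a : ZMod p, x = a • n₀ := by
  have hp := (Fact.out : p.Prime)
  have : Finite N := Nat.finite_of_card_ne_zero (by rw [hN]; exact hp.ne_zero)
  have : Module.Finite (ZMod p) N := Module.Finite.of_finite
  have hcard : Nat.card N = p ^ Module.finrank (ZMod p) N := by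
    have := Module.natCard_eq_pow_finrank (K := ZMod p) (V := N)
    rwa [Nat.card_zmod] at this
  have hfr : Module.finrank (ZMod p) N = 1 :=
    Nat.pow_right_injective hp.two_le (by show p ^ _ = p ^ 1; rw [← hcard, hN, pow_one])
  have : Nontrivial N := by
    rw [← Finite.one_lt_card_iff_nontrivial, hN]; exact hp.one_lt
  obtain ⟨v, hv⟩ := exists_ne (0 : N)
  refine ⟨v.1, v.2, fun h => hv (Subtype.ext h), fun x hx => ?_⟩
  obtain ⟨c, hc⟩ := (finrank_eq_one_iff_of_nonzero' v hv).1 hfr ⟨x, hx⟩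
  refine ⟨c, ?_⟩
  have := congrArg Subtype.val hc
  exact this.symm

end linalg

section action

variable {p : ℕ} [Fact p.Prime] {G : Type*} [Group G] {V : Type*} [AddCommGroup V]
  [Module (ZMod p) V] [DistribMulAction G V] [SMulCommClass G (ZMod p) V]

/-- An element whose `p`-th power acts trivially acts trivially on a stable line. -/
theorem ptm_trivial_on_line (N : Submodule (ZMod p) V) (hN : Nat.card N = p) (σ : G)
    (hσN : ∀ x ∈ N, σ • x ∈ N) (hσp : ∀ x : V, σ ^ p • x = x) : ∀ x ∈ N, σ • x = x := by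
  obtain ⟨n₀, hn₀, hne, hgen⟩ := ptm_exists_generator N hN
  obtain ⟨c, hc⟩ := hgen _ (hσN n₀ hn₀)
  have hpow : ∀ k : ℕ, σ ^ k • n₀ = c ^ k • n₀ := by
    intro k
    induction k with
    | zero => simp
    | succ k ih => rw [pow_succ', mul_smul, ih, smul_comm, hc, smul_smul, ← pow_succ]
  have h1 : c ^ p • n₀ = n₀ := by rw [← hpow, hσp]
  have h2 : c = 1 := by
    have h3 : (c ^ p - 1) • n₀ = 0 := by rw [sub_smul, h1, one_smul, sub_self]
    rcases smul_eq_zero.1 h3 with h | h
    · rw [ZMod.pow_card] at h; exact sub_eq_zero.1 h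
    · exact absurd h hne
  intro x hx
  obtain ⟨a, rfl⟩ := hgen x hx
  rw [smul_comm, hc, h2, one_smul]

/-- An element whose `p`-th power acts trivially acts trivially on the quotient by a stable
line. -/
theorem ptm_trivial_on_quot (hV : Nat.card V = p ^ 2) (N : Submodule (ZMod p) V)
    (hN : Nat.card N = p) (σ : G) (hσN : ∀ x ∈ N, σ • x ∈ N) (hσp : ∀ x : V, σ ^ p • x = x) :
    ∀ x : V, σ • x - x ∈ N := by
  obtain ⟨e, he⟩ := cff_exists_not_mem N hN hV
  obtain ⟨c, hc, d, hd⟩ := cff_exists_decomp N hN hV he (σ • e)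
  have hpow : ∀ k : ℕ, σ ^ k • e - d ^ k • e ∈ N := by
    intro k
    induction k with
    | zero => simp
    | succ k ih =>
      have h1 : σ ^ (k + 1) • e - d ^ (k + 1) • e
          = σ • (σ ^ k • e - d ^ k • e) + d ^ k • c := by
        have e1 : σ ^ (k + 1) • e = σ • σ ^ k • e := by rw [pow_succ', mul_smul]
        have e2 : d ^ (k + 1) • e = d ^ k • d • e := by rw [pow_succ, mul_smul]
        have e3 : σ • (d ^ k • e) = d ^ k • (c + d • e) := by rw [smul_comm σ (d ^ k) e, hd]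
        rw [e1, e2, smul_sub, e3, smul_add]
        abel
      rw [h1]
      exact N.add_mem (hσN _ ih) (N.smul_mem _ hc)
  have h1 : (1 - d ^ p) • e ∈ N := by
    have h2 : (1 - d ^ p) • e = σ ^ p • e - d ^ p • e := by rw [hσp, sub_smul, one_smul]
    rw [h2]; exact hpow p
  have hd1 : d = 1 := by
    by_contra hne
    rw [ZMod.pow_card] at h1
    have h2 : (1 - d) ≠ 0 := fun h => hne (sub_eq_zero.1 h).symm
    have h3 : e = (1 - d)⁻¹ • ((1 - d) • e) := by rw [smul_smul, inv_mul_cancel₀ h2, one_smul]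
    apply he
    rw [h3]
    exact N.smul_mem _ h1
  have hσe : σ • e - e ∈ N := by
    rw [hd, hd1, one_smul, add_sub_cancel_right]; exact hc
  intro x
  obtain ⟨c', hc', a, rfl⟩ := cff_exists_decomp N hN hV he x
  have h2 : σ • (c' + a • e) - (c' + a • e) = (σ • c' - c') + a • (σ • e - e) := by
    rw [smul_add, smul_comm σ a e, smul_sub]; abel
  rw [h2]
  exact N.add_mem (N.sub_mem (hσN _ hc') hc') (N.smul_mem _ hσe)

variable (G) in
/-- The subgroup of elements fixing `N` pointwise. -/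
def ptm_fixLine (N : Submodule (ZMod p) V) : Subgroup G where
  carrier := {σ | ∀ x ∈ N, σ • x = x}
  one_mem' := fun x _ => one_smul _ x
  mul_mem' := fun {a b} ha hb x hx => by rw [mul_smul, hb x hx, ha x hx]
  inv_mem' := fun {a} ha x hx => by rw [inv_smul_eq_iff, ha x hx]

lemma ptm_mem_fixLine (N : Submodule (ZMod p) V) (σ : G) :
    σ ∈ ptm_fixLine G N ↔ ∀ x ∈ N, σ • x = x := Iff.rfl

theorem ptm_fixLine_normal (N : Submodule (ZMod p) V) (hN : ∀ σ : G, ∀ x ∈ N, σ • x ∈ N) :
    (ptm_fixLine G N).Normal := by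
  refine ⟨fun σ hσ g x hx => ?_⟩
  rw [mul_smul, mul_smul, hσ _ (hN g⁻¹ x hx), smul_inv_smul]

/-- The subgroup of elements acting on `V/N` through the character `ψ`. -/
def ptm_quotChar (N : Submodule (ZMod p) V) (hN : ∀ σ : G, ∀ x ∈ N, σ • x ∈ N)
    (ψ : G →* (ZMod p)ˣ) : Subgroup G where
  carrier := {σ | ∀ x : V, σ • x - ((ψ σ : (ZMod p)ˣ) : ZMod p) • x ∈ N}
  one_mem' := fun x => by simp
  mul_mem' := fun {a b} ha hb x => by
    have h1 : (a * b) • x - ((ψ (a * b) : (ZMod p)ˣ) : ZMod p) • x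
        = a • (b • x - ((ψ b : (ZMod p)ˣ) : ZMod p) • x)
          + ((ψ b : (ZMod p)ˣ) : ZMod p) • (a • x - ((ψ a : (ZMod p)ˣ) : ZMod p) • x) := by
      have e1 : (a * b) • x = a • b • x := mul_smul a b x
      have e2 : ((ψ (a * b) : (ZMod p)ˣ) : ZMod p) • x
          = ((ψ b : (ZMod p)ˣ) : ZMod p) • ((ψ a : (ZMod p)ˣ) : ZMod p) • x := by
        rw [map_mul, Units.val_mul, mul_comm, mul_smul]
      have e3 : a • (((ψ b : (ZMod p)ˣ) : ZMod p) • x)
          = ((ψ b : (ZMod p)ˣ) : ZMod p) • a • x := smul_comm a _ x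
      rw [e1, e2, smul_sub, smul_sub, e3]
      abel
    rw [h1]
    exact N.add_mem (hN a _ (hb x)) (N.smul_mem _ (ha x))
  inv_mem' := fun {a} ha x => by
    have h1 : a⁻¹ • x - ((ψ a⁻¹ : (ZMod p)ˣ) : ZMod p) • x
        = -((((ψ a)⁻¹ : (ZMod p)ˣ) : ZMod p) •
            (a⁻¹ • (a • x - ((ψ a : (ZMod p)ˣ) : ZMod p) • x))) := by
      have e1 : a⁻¹ • (a • x - ((ψ a : (ZMod p)ˣ) : ZMod p) • x)
          = x - ((ψ a : (ZMod p)ˣ) : ZMod p) • a⁻¹ • x := by
        rw [smul_sub, inv_smul_smul, smul_comm a⁻¹ ((ψ a : (ZMod p)ˣ) : ZMod p) x]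
      have e2 : (((ψ a)⁻¹ : (ZMod p)ˣ) : ZMod p) • (((ψ a : (ZMod p)ˣ) : ZMod p) • a⁻¹ • x)
          = a⁻¹ • x := by
        rw [smul_smul, ← Units.val_mul, inv_mul_cancel, Units.val_one, one_smul]
      rw [map_inv, e1, smul_sub, e2]
      abel
    rw [h1]
    exact N.neg_mem (N.smul_mem _ (hN a⁻¹ _ (ha x)))

lemma ptm_mem_quotChar (N : Submodule (ZMod p) V) (hN : ∀ σ : G, ∀ x ∈ N, σ • x ∈ N)
    (ψ : G →* (ZMod p)ˣ) (σ : G) :
    σ ∈ ptm_quotChar N hN ψ ↔ ∀ x : V, σ • x - ((ψ σ : (ZMod p)ˣ) : ZMod p) • x ∈ N := Iff.rfl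

theorem ptm_quotChar_normal (N : Submodule (ZMod p) V) (hN : ∀ σ : G, ∀ x ∈ N, σ • x ∈ N)
    (ψ : G →* (ZMod p)ˣ) : (ptm_quotChar N hN ψ).Normal := by
  refine ⟨fun σ hσ g x => ?_⟩
  have hψ : ψ (g * σ * g⁻¹) = ψ σ := by
    rw [map_mul, map_mul, map_inv, mul_comm (ψ g), mul_assoc, mul_inv_cancel, mul_one]
  have h1 : (g * σ * g⁻¹) • x - ((ψ (g * σ * g⁻¹) : (ZMod p)ˣ) : ZMod p) • x
      = g • (σ • (g⁻¹ • x) - ((ψ σ : (ZMod p)ˣ) : ZMod p) • (g⁻¹ • x)) := by
    have e1 : (g * σ * g⁻¹) • x = g • σ • g⁻¹ • x := by rw [mul_smul, mul_smul]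
    have e2 : g • (((ψ σ : (ZMod p)ˣ) : ZMod p) • (g⁻¹ • x))
        = ((ψ σ : (ZMod p)ˣ) : ZMod p) • x := by
      rw [smul_comm g ((ψ σ : (ZMod p)ˣ) : ZMod p) (g⁻¹ • x), smul_inv_smul]
    rw [hψ, e1, smul_sub, e2]
  rw [h1]
  exact hN g _ (hσ _)

end action

section main

variable (p : ℕ) [Fact p.Prime] (V : Type) [AddCommGroup V] [Module (ZMod p) V]
  [DistribMulAction GQ V] [SMulCommClass GQ (ZMod p) V]

/-- The local condition at a valuation subring `A` over `p`, ordinary type: a line `T`, stable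
under the decomposition subgroup, with inertia acting trivially on `V/T` and through the
cyclotomic character on `T`. -/
def ptm_OrdAt (A : ValuationSubring Qbar) : Prop :=
  ∃ T : Submodule (ZMod p) V, Nat.card T = p ∧
    (∀ σ ∈ A.decompositionSubgroup ℚ, ∀ x ∈ T, σ • x ∈ T) ∧
    (∀ σ ∈ A.inertiaSubgroupIn ℚ, ∀ x : V, σ • x - x ∈ T) ∧
    (∀ σ ∈ A.inertiaSubgroupIn ℚ, ∀ x ∈ T, σ • x = (cycloExp p σ : ZMod p) • x)

/-- The local condition at a valuation subring `A` over `p`, supersingular type: no line is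
stable under the inertia subgroup. -/
def ptm_SsAt (A : ValuationSubring Qbar) : Prop :=
  ∀ N : Submodule (ZMod p) V, Nat.card N = p →
    ∃ σ ∈ A.inertiaSubgroupIn ℚ, ∃ x ∈ N, σ • x ∉ N

variable {p V}

/-- **Abstract assembly for S13**: a reducible two-dimensional mod `p` representation of `G_ℚ`
with the local properties of the Frey curve has a stable line with trivial quotient. -/
theorem ptm_cofixed_of_inputs
    (hcard : Nat.card V = p ^ 2)
    (hlev : ∃ E : IntermediateField ℚ Qbar, FiniteDimensional ℚ E ∧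
      ∀ σ ∈ E.fixingSubgroup, ∀ v : V, σ • v = v)
    (hodd : ∀ ℓ : ℕ, ℓ.Prime → ℓ ≠ 2 → ℓ ≠ p → ∀ A : ValuationSubring Qbar,
      A.LiesOverPrime ℓ → ∀ σ ∈ A.inertiaSubgroupIn ℚ, ∀ x : V, σ • x = x)
    (h2a : ∀ A : ValuationSubring Qbar, A.LiesOverPrime 2 →
      ∀ σ ∈ A.inertiaSubgroupIn ℚ, ∀ x : V, σ ^ p • x = x)
    (h2b : ∀ A : ValuationSubring Qbar, A.LiesOverPrime 2 →
      (∃ x : V, x ≠ 0 ∧ ∀ σ ∈ A.decompositionSubgroup ℚ, σ • x = x) →
      ∀ σ ∈ A.inertiaSubgroupIn ℚ, ∀ y : V, σ • y = y)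
    (hp : ∀ A : ValuationSubring Qbar, A.LiesOverPrime p → ptm_OrdAt p V A ∨ ptm_SsAt p V A)
    (hext : ExtVanishingCts p)
    (N : Submodule (ZMod p) V) (hN : ∀ σ : GQ, ∀ x ∈ N, σ • x ∈ N) (hNbot : N ≠ ⊥)
    (hNtop : N ≠ ⊤) :
    ∃ N' : Submodule (ZMod p) V, (∀ σ : GQ, ∀ x ∈ N', σ • x ∈ N') ∧ N' ≠ ⊥ ∧ N' ≠ ⊤ ∧
      ∀ σ : GQ, ∀ x : V, σ • x - x ∈ N' := by
  have hp' := (Fact.out : p.Prime)
  have hNcard : Nat.card N = p := ptm_card_line hcard N hNbot hNtop
  obtain ⟨E, hEfin, hE⟩ := hlev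
  -- inertia at `ℓ ≠ p` acts trivially on `N` and on `V/N`
  have hI_N : ∀ ℓ : ℕ, ℓ.Prime → ℓ ≠ p → ∀ A : ValuationSubring Qbar, A.LiesOverPrime ℓ →
      ∀ σ ∈ A.inertiaSubgroupIn ℚ, ∀ x ∈ N, σ • x = x := by
    intro ℓ hℓ hℓp A hA σ hσ
    by_cases h2 : ℓ = 2
    · subst h2
      exact ptm_trivial_on_line N hNcard σ (hN σ) (h2a A hA σ hσ)
    · intro x _
      exact hodd ℓ hℓ h2 hℓp A hA σ hσ x
  have hI_Q : ∀ ℓ : ℕ, ℓ.Prime → ℓ ≠ p → ∀ A : ValuationSubring Qbar, A.LiesOverPrime ℓ →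
      ∀ σ ∈ A.inertiaSubgroupIn ℚ, ∀ x : V, σ • x - x ∈ N := by
    intro ℓ hℓ hℓp A hA σ hσ
    by_cases h2 : ℓ = 2
    · subst h2
      exact ptm_trivial_on_quot hcard N hNcard σ (hN σ) (h2a A hA σ hσ)
    · intro x
      rw [hodd ℓ hℓ h2 hℓp A hA σ hσ x, sub_self]
      exact N.zero_mem
  -- every valuation subring over `p` is of ordinary type
  have hord : ∀ A : ValuationSubring Qbar, A.LiesOverPrime p → ptm_OrdAt p V A := by
    intro A hA
    rcases hp A hA with h | h
    · exact h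
    · obtain ⟨σ, hσ, x, hx, hx'⟩ := h N hNcard
      exact absurd (hN σ x hx) hx'
  by_cases hcase : ∃ A : ValuationSubring Qbar, A.LiesOverPrime p ∧
      ∀ σ ∈ A.inertiaSubgroupIn ℚ, ∀ x : V, σ • x - x ∈ N
  · -- Case 1: some inertia subgroup over `p` acts trivially on `V/N`; then `N` is cofixed
    obtain ⟨A₀, hA₀, hI₀⟩ := hcase
    haveI := ptm_quotChar_normal N hN (1 : GQ →* (ZMod p)ˣ)
    have htop : ptm_quotChar N hN (1 : GQ →* (ZMod p)ˣ) = ⊤ := by
      refine ptm_subgroup_eq_top _ E ?_ ?_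
      · intro σ hσ x
        rw [hE σ hσ x, MonoidHom.one_apply, Units.val_one, one_smul, sub_self]
        exact N.zero_mem
      · intro ℓ hℓ A hA τ hτ
        by_cases hℓp : ℓ = p
        · rw [hℓp] at hA hℓ
          obtain ⟨g, hg⟩ := ptm_inertia_conj hℓ A₀ A hA₀ hA
          have h1 : g * τ * g⁻¹ ∈ ptm_quotChar N hN (1 : GQ →* (ZMod p)ˣ) := by
            intro x
            rw [MonoidHom.one_apply, Units.val_one, one_smul]
            exact hI₀ _ (hg τ hτ) x
          have h2 := (ptm_quotChar_normal N hN (1 : GQ →* (ZMod p)ˣ)).conj_mem _ h1 g⁻¹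
          have h3 : g⁻¹ * (g * τ * g⁻¹) * g⁻¹⁻¹ = τ := by group
          rwa [h3] at h2
        · intro x
          rw [MonoidHom.one_apply, Units.val_one, one_smul]
          exact hI_Q ℓ hℓ hℓp A hA τ hτ x
    refine ⟨N, hN, hNbot, hNtop, fun σ x => ?_⟩
    have hσ : σ ∈ ptm_quotChar N hN (1 : GQ →* (ZMod p)ˣ) := by rw [htop]; trivial
    have := hσ x
    rwa [MonoidHom.one_apply, Units.val_one, one_smul] at this
  · -- Case 2: the lines `T_A` are all different from `N`; admissible extension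
    push Not at hcase
    have hT : ∀ A : ValuationSubring Qbar, A.LiesOverPrime p →
        ∃ T : Submodule (ZMod p) V, IsCompl N T ∧
          (∀ σ ∈ A.decompositionSubgroup ℚ, ∀ x ∈ T, σ • x ∈ T) ∧
          (∀ σ ∈ A.inertiaSubgroupIn ℚ, ∀ x : V, σ • x - x ∈ T) ∧
          (∀ σ ∈ A.inertiaSubgroupIn ℚ, ∀ x ∈ T, σ • x = (cycloExp p σ : ZMod p) • x) := by
      intro A hA
      obtain ⟨T, hTcard, hTD, hTQ, hTω⟩ := hord A hA
      have hne : N ≠ T := by
        intro h
        obtain ⟨σ, hσ, x, hx⟩ := hcase A hA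
        exact hx (h ▸ hTQ σ hσ x)
      exact ⟨T, ptm_isCompl_of_ne hcard N T hNcard hTcard hne, hTD, hTQ, hTω⟩
    -- inertia over `p` acts trivially on `N`
    have hpN : ∀ A : ValuationSubring Qbar, A.LiesOverPrime p →
        ∀ σ ∈ A.inertiaSubgroupIn ℚ, ∀ x ∈ N, σ • x = x := by
      intro A hA σ hσ x hx
      obtain ⟨T, hcompl, -, hTQ, -⟩ := hT A hA
      have h1 : σ • x - x ∈ N ⊓ T := ⟨N.sub_mem (hN σ x hx) hx, hTQ σ hσ x⟩
      rw [hcompl.inf_eq_bot, Submodule.mem_bot] at h1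
      exact sub_eq_zero.1 h1
    -- inertia over `p` acts on `V/N` through the cyclotomic character
    have hpQ : ∀ A : ValuationSubring Qbar, A.LiesOverPrime p →
        ∀ σ ∈ A.inertiaSubgroupIn ℚ, ∀ x : V, σ • x - (cycloExp p σ : ZMod p) • x ∈ N := by
      intro A hA σ hσ x
      obtain ⟨T, hcompl, -, -, hTω⟩ := hT A hA
      have hx : x ∈ N ⊔ T := by rw [hcompl.sup_eq_top]; trivial
      obtain ⟨n, hn, t, ht, rfl⟩ := Submodule.mem_sup.1 hx
      have h1 : σ • (n + t) - (cycloExp p σ : ZMod p) • (n + t)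
          = σ • n - (cycloExp p σ : ZMod p) • n := by
        rw [smul_add, smul_add, hTω σ hσ t ht]; abel
      rw [h1]
      exact N.sub_mem (hN σ n hn) (N.smul_mem _ hn)
    -- `G_ℚ` acts trivially on `N`
    haveI := ptm_fixLine_normal N hN
    have htop1 : ptm_fixLine GQ N = ⊤ := by
      refine ptm_subgroup_eq_top _ E ?_ ?_
      · intro σ hσ x _
        exact hE σ hσ x
      · intro ℓ hℓ A hA τ hτ
        by_cases hℓp : ℓ = p
        · rw [hℓp] at hA
          exact hpN A hA τ hτ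
        · exact hI_N ℓ hℓ hℓp A hA τ hτ
    have hfix : ∀ σ : GQ, ∀ x ∈ N, σ • x = x := by
      intro σ
      have hσ : σ ∈ ptm_fixLine GQ N := by rw [htop1]; trivial
      exact hσ
    -- `G_ℚ` acts on `V/N` through the cyclotomic character
    haveI := ptm_quotChar_normal N hN (cycloChar p)
    have htop3 : ptm_quotChar N hN (cycloChar p) = ⊤ := by
      haveI : FiniteDimensional ℚ ↥(E ⊔ pta_cycloField p) :=
        IntermediateField.finiteDimensional_sup E (pta_cycloField p)
      refine ptm_subgroup_eq_top _ (E ⊔ pta_cycloField p) ?_ ?_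
      · intro σ hσ x
        have h1 : σ ∈ E.fixingSubgroup :=
          IntermediateField.fixingSubgroup_antitone le_sup_left hσ
        have h2 : σ ∈ (pta_cycloField p).fixingSubgroup :=
          IntermediateField.fixingSubgroup_antitone le_sup_right hσ
        rw [pta_fixingSubgroup_cycloField, MonoidHom.mem_ker] at h2
        rw [hE σ h1 x, h2, Units.val_one, one_smul, sub_self]
        exact N.zero_mem
      · intro ℓ hℓ A hA τ hτ
        by_cases hℓp : ℓ = p
        · rw [hℓp] at hA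
          intro x
          rw [coe_cycloChar]
          exact hpQ A hA τ hτ x
        · intro x
          rw [pta_cycloChar_unramified hℓ hℓp A hA τ hτ, Units.val_one, one_smul]
          exact hI_Q ℓ hℓ hℓp A hA τ hτ x
    have hquot : ∀ σ : GQ, ∀ x : V, σ • x - (cycloExp p σ : ZMod p) • x ∈ N := by
      intro σ x
      have hσ : σ ∈ ptm_quotChar N hN (cycloChar p) := by rw [htop3]; trivial
      have := hσ x
      rwa [coe_cycloChar] at this
    -- a generator of `N`, fixed by `G_ℚ`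
    obtain ⟨n₀, hn₀, hne, -⟩ := ptm_exists_generator N hNcard
    -- the extension is admissible
    have hopen : IsOpen {σ : GQ | ∀ v : V, σ • v = v} := by
      have h1 : ((cff_actKer GQ V : Subgroup GQ) : Set GQ) = {σ : GQ | ∀ v : V, σ • v = v} := by
        ext σ
        exact cff_mem_actKer
      rw [← h1]
      refine Subgroup.isOpen_mono (H₁ := E.fixingSubgroup) ?_ E.fixingSubgroup_isOpen
      intro σ hσ
      exact cff_mem_actKer.2 (hE σ hσ)
    have hadm : IsAdmissibleExtensionCts p V N :=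
      { stable := hN
        fixed_sub := hfix
        cyclo_quot := hquot
        card_sub := hNcard
        card_total := hcard
        unramified_outside := by
          intro ℓ hℓ hℓp A hA σ hσ x
          by_cases h2 : ℓ = 2
          · subst h2
            exact h2b A hA ⟨n₀, hne, fun τ _ => hfix τ n₀ hn₀⟩ σ hσ x
          · exact hodd ℓ hℓ h2 hℓp A hA σ hσ x
        locally_split := by
          intro A hA
          obtain ⟨T, hcompl, hTD, -, -⟩ := hT A hA
          exact ⟨T, hTD, hcompl⟩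
        open_kernel := hopen }
    obtain ⟨C', hC'stab, hC'compl⟩ := hext V N hadm
    refine ⟨C', hC'stab, ?_, ?_, fun σ x => ?_⟩
    · intro h
      apply hNtop
      have := hC'compl.sup_eq_top
      rwa [h, sup_bot_eq] at this
    · intro h
      apply hNbot
      have := hC'compl.inf_eq_bot
      rwa [h, inf_top_eq] at this
    · have hx : x ∈ N ⊔ C' := by rw [hC'compl.sup_eq_top]; trivial
      obtain ⟨n, hn, c, hc, rfl⟩ := Submodule.mem_sup.1 hx
      have h1 : σ • (n + c) - (n + c) = σ • c - c := by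
        rw [smul_add, hfix σ n hn]; abel
      rw [h1]
      exact C'.sub_mem (hC'stab σ c hc) hc

end main

end Fermat.Agent.Lib.Mz
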