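/-
Moonshot M1 (S13), package (A), concrete model: the abstract assembly `ptm_cofixed_of_inputs`
applied to `V = E[p](Q̄)` for the Frey curve, in the frozen vocabulary of S13.
All arithmetic inputs are hypotheses of `ptm_S13_of_inputs`; the finite-level property of
`E[p]` is derived here from its finiteness (`ptm_exists_level`).
-/
import Mathlib
import Fermat.Prelude.Def_FLTPrelim_FreyPackage
import Fermat.Prelude.Def_FLTPrelim_GaloisRep
import Fermat.Prelude.Def_FLTPrelim_Ramification
import Fermat.Prelude.Def_FLTPrelim_CofixedLine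
import Fermat.Agent.Lib.Mz.Assembly

set_option autoImplicit false
set_option linter.unusedVariables false
set_option linter.unusedSectionVars false
set_option linter.style.haveILetI false

namespace Fermat.Agent.Lib.Mz

open WeierstrassCurve WeierstrassCurve.Affine WeierstrassCurve.Affine.Point ExtCitation

local notation "Qbar" => AlgebraicClosure ℚ
local notation "GQ" => (AlgebraicClosure ℚ ≃ₐ[ℚ] AlgebraicClosure ℚ)

section model

variable (E : WeierstrassCurve.Affine ℚ) (n : ℕ)

/-- The Galois action on `E[n]` commutes with the `ℤ/n`-module structure. -/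
instance ptm_smulCommClass_torsion :
    SMulCommClass GQ (ZMod n) (Submodule.torsionBy ℤ (E⁄Qbar).Point n) :=
  ⟨fun σ c x => ZMod.map_smul
    (DistribMulAction.toAddMonoidHom (Submodule.torsionBy ℤ (E⁄Qbar).Point n) σ) c x⟩

/-- The coordinates of a point. -/
def ptm_coords : (E⁄Qbar).Point → Set Qbar
  | .zero => ∅
  | .some x y _ => {x, y}

lemma ptm_coords_finite (P : (E⁄Qbar).Point) : (ptm_coords E P).Finite := by
  cases P with
  | zero => exact Set.finite_empty
  | some x y h => exact Set.toFinite {x, y}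

lemma ptm_smul_eq_of_fixes_coords (σ : GQ) (P : (E⁄Qbar).Point)
    (h : ∀ z ∈ ptm_coords E P, σ z = z) : σ • P = P := by
  cases P with
  | zero => rfl
  | some x y hxy =>
    have hx : σ x = x := h x (Set.mem_insert _ _)
    have hy : σ y = y := h y (Set.mem_insert_of_mem _ rfl)
    rw [algEquiv_smul_def, Point.map_some]
    simp only [Point.some.injEq]
    exact ⟨hx, hy⟩

/-- **Finite level**: if `E[n]` is finite there is a finite extension of `ℚ` whose absolute Galois
group acts trivially on `E[n]`. -/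
theorem ptm_exists_level [Finite (Submodule.torsionBy ℤ (E⁄Qbar).Point n)] :
    ∃ F : IntermediateField ℚ Qbar, FiniteDimensional ℚ F ∧
      ∀ σ ∈ F.fixingSubgroup, ∀ v : Submodule.torsionBy ℤ (E⁄Qbar).Point n, σ • v = v := by
  set S : Set Qbar := ⋃ v : Submodule.torsionBy ℤ (E⁄Qbar).Point n, ptm_coords E v.1 with hS
  have hSfin : S.Finite := Set.finite_iUnion fun v => ptm_coords_finite E v.1
  haveI : Finite S := hSfin.to_subtype
  refine ⟨IntermediateField.adjoin ℚ S, ?_, ?_⟩
  · exact IntermediateField.finiteDimensional_adjoin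
      (fun x _ => ((AlgebraicClosure.isAlgebraic ℚ).isAlgebraic x).isIntegral)
  · intro σ hσ v
    apply Subtype.ext
    show σ • v.1 = v.1
    apply ptm_smul_eq_of_fixes_coords
    intro z hz
    rw [IntermediateField.mem_fixingSubgroup_iff] at hσ
    exact hσ z (IntermediateField.subset_adjoin ℚ S (Set.mem_iUnion.2 ⟨v, hz⟩))

end model

section frey

open FreyPackage

/-- **S13 from its arithmetic inputs.**  `V = E[p](Q̄)` for the Frey curve `E` of the package `P`:
* `hcard` : `#V = p²`;
* `hodd` : `V` is unramified outside `2p` (S05);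
* `h2a`, `h2b` : at `2`, `p`-th powers of inertia act trivially, and a nonzero vector fixed by a
  decomposition subgroup forces the inertia subgroup to act trivially;
* `hp` : at `p`, ordinary type or supersingular type;
* `hext` : vanishing of admissible extensions (S14).
-/
theorem ptm_S13_of_inputs (P : FreyPackage)
    (hcard : Nat.card (Submodule.torsionBy ℤ (P.freyCurve⁄Qbar).Point P.p) = P.p ^ 2)
    (hodd : ∀ q : ℕ, q.Prime → q ≠ 2 → q ≠ P.p → P.GaloisRepUnramifiedAt q)
    (h2a : ∀ A : ValuationSubring Qbar, A.LiesOverPrime 2 →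
      ∀ σ ∈ A.inertiaSubgroupIn ℚ, ∀ x : Submodule.torsionBy ℤ (P.freyCurve⁄Qbar).Point P.p,
        σ ^ P.p • x = x)
    (h2b : ∀ A : ValuationSubring Qbar, A.LiesOverPrime 2 →
      (∃ x : Submodule.torsionBy ℤ (P.freyCurve⁄Qbar).Point P.p,
        x ≠ 0 ∧ ∀ σ ∈ A.decompositionSubgroup ℚ, σ • x = x) →
      ∀ σ ∈ A.inertiaSubgroupIn ℚ, ∀ y : Submodule.torsionBy ℤ (P.freyCurve⁄Qbar).Point P.p,
        σ • y = y)
    (hp : haveI : Fact P.p.Prime := ⟨P.pp⟩
      ∀ A : ValuationSubring Qbar, A.LiesOverPrime P.p →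
        ptm_OrdAt P.p (Submodule.torsionBy ℤ (P.freyCurve⁄Qbar).Point P.p) A ∨
        ptm_SsAt P.p (Submodule.torsionBy ℤ (P.freyCurve⁄Qbar).Point P.p) A)
    (hext : haveI : Fact P.p.Prime := ⟨P.pp⟩
      ExtVanishingCts P.p)
    (hred : ¬ GaloisRepIsIrreducible (K := AlgebraicClosure ℚ) ℚ P.freyCurve P.p) :
    HasGaloisStableCofixedLine (K := AlgebraicClosure ℚ) ℚ P.freyCurve P.p := by
  haveI : Fact P.p.Prime := ⟨P.pp⟩
  have hpp := P.pp
  haveI : Finite (Submodule.torsionBy ℤ (P.freyCurve⁄Qbar).Point P.p) :=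
    Nat.finite_of_card_ne_zero (by rw [hcard]; exact pow_ne_zero _ hpp.ne_zero)
  -- a stable line
  have hnt : Nontrivial (Submodule.torsionBy ℤ (P.freyCurve⁄Qbar).Point P.p) := by
    rw [← Finite.one_lt_card_iff_nontrivial, hcard]
    exact Nat.one_lt_pow two_ne_zero hpp.one_lt
  obtain ⟨N, hN, hNbot, hNtop⟩ : ∃ N : Submodule (ZMod P.p)
      (Submodule.torsionBy ℤ (P.freyCurve⁄Qbar).Point P.p),
      IsGaloisStable ℚ N ∧ N ≠ ⊥ ∧ N ≠ ⊤ := by
    by_contra hcon
    apply hred
    refine ⟨hnt, fun N hN => ?_⟩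
    by_contra h
    push Not at h
    exact hcon ⟨N, hN, h.1, h.2⟩
  obtain ⟨N', h1, h2, h3, h4⟩ := ptm_cofixed_of_inputs hcard
    (ptm_exists_level P.freyCurve P.p)
    (fun ℓ hℓ hℓ2 hℓp A hA σ hσ x => hodd ℓ hℓ hℓ2 hℓp A hA σ hσ x)
    h2a h2b hp hext N hN hNbot hNtop
  exact ⟨N', h1, h2, h3, h4⟩

end frey

end Fermat.Agent.Lib.Mz
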