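/-
Moonshot M1 (S13): the assembly along the interface of `Lib/S13/Iface` (lead's route):
(A) `#E[p] = p²`, (B) local analysis at `p` (inertia acts trivially modulo the kernel of reduction;
supersingular type is irreducible), (C) `p`-th powers of inertia at `2` act trivially,
(D) no rational point of order `p`  ⟹  S13.
Minkowski (E) is used in the strong form `ptm_subgroup_eq_top` (already proved), and S05 is plugged
in directly.  This route does not use S14.
-/
import Mathlib
import Fermat.Agent.S05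
import Fermat.Agent.Lib.S13.Iface
import Fermat.Agent.Lib.Mz.S13Model

set_option autoImplicit false
set_option linter.unusedVariables false
set_option linter.unusedSectionVars false
set_option linter.style.haveILetI false

namespace Fermat.Agent.Lib.Mz

open WeierstrassCurve WeierstrassCurve.Affine WeierstrassCurve.Affine.Point
open FreyPackage Fermat.Agent.Lib.S13

local notation "Qbar" => AlgebraicClosure ℚ
local notation "GQ" => (AlgebraicClosure ℚ ≃ₐ[ℚ] AlgebraicClosure ℚ)

/-- **S13 from the interface statements (A), (B), (C), (D).** -/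
theorem ptm_S13_of_iface (hA : s13_IfaceCard) (hB : s13_IfaceLocalP) (hC : s13_IfaceLocal2)
    (hD : s13_IfaceNoRatPt) (P : FreyPackage)
    (hred : ¬ GaloisRepIsIrreducible (K := AlgebraicClosure ℚ) ℚ P.freyCurve P.p) :
    HasGaloisStableCofixedLine (K := AlgebraicClosure ℚ) ℚ P.freyCurve P.p := by
  haveI : Fact P.p.Prime := ⟨P.pp⟩
  have hpp := P.pp
  have hcard : Nat.card (s13_V P) = P.p ^ 2 := hA P
  haveI : Finite (s13_V P) :=
    Nat.finite_of_card_ne_zero (by rw [hcard]; exact pow_ne_zero _ hpp.ne_zero)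
  have hnt : Nontrivial (s13_V P) := by
    rw [← Finite.one_lt_card_iff_nontrivial, hcard]
    exact Nat.one_lt_pow two_ne_zero hpp.one_lt
  obtain ⟨N, hN, hNbot, hNtop⟩ : ∃ N : Submodule (ZMod P.p) (s13_V P),
      IsGaloisStable ℚ N ∧ N ≠ ⊥ ∧ N ≠ ⊤ := by
    by_contra hcon
    apply hred
    refine ⟨hnt, fun N hN => ?_⟩
    by_contra h
    push Not at h
    exact hcon ⟨N, hN, h.1, h.2⟩
  have hNcard : Nat.card N = P.p := ptm_card_line hcard N hNbot hNtop
  obtain ⟨E, hEfin, hE⟩ := ptm_exists_level P.freyCurve P.p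
  have hodd : ∀ ℓ : ℕ, ℓ.Prime → ℓ ≠ 2 → ℓ ≠ P.p → ∀ A : ValuationSubring Qbar,
      A.LiesOverPrime ℓ → ∀ σ ∈ A.inertiaSubgroupIn ℚ, ∀ x : s13_V P, σ • x = x :=
    fun ℓ hℓ hℓ2 hℓp A hA σ hσ x => Fermat.Agent.S05.result P hℓ hℓ2 hℓp A hA σ hσ x
  -- inertia at `ℓ ≠ p` acts trivially on `N` and on `V/N`
  have hI_N : ∀ ℓ : ℕ, ℓ.Prime → ℓ ≠ P.p → ∀ A : ValuationSubring Qbar, A.LiesOverPrime ℓ →
      ∀ σ ∈ A.inertiaSubgroupIn ℚ, ∀ x ∈ N, σ • x = x := by
    intro ℓ hℓ hℓp A hA σ hσ
    by_cases h2 : ℓ = 2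
    · subst h2
      exact ptm_trivial_on_line N hNcard σ (hN σ) (hC P A hA σ hσ)
    · intro x _
      exact hodd ℓ hℓ h2 hℓp A hA σ hσ x
  have hI_Q : ∀ ℓ : ℕ, ℓ.Prime → ℓ ≠ P.p → ∀ A : ValuationSubring Qbar, A.LiesOverPrime ℓ →
      ∀ σ ∈ A.inertiaSubgroupIn ℚ, ∀ x : s13_V P, σ • x - x ∈ N := by
    intro ℓ hℓ hℓp A hA σ hσ
    by_cases h2 : ℓ = 2
    · subst h2
      exact ptm_trivial_on_quot hcard N hNcard σ (hN σ) (hC P A hA σ hσ)
    · intro x
      rw [hodd ℓ hℓ h2 hℓp A hA σ hσ x, sub_self]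
      exact N.zero_mem
  by_cases hcase : ∃ A : ValuationSubring Qbar, A.LiesOverPrime P.p ∧
      ∀ σ ∈ A.inertiaSubgroupIn ℚ, ∀ x : s13_V P, σ • x - x ∈ N
  · -- Case 1: some inertia subgroup over `p` acts trivially on `V/N`; then `N` is cofixed
    obtain ⟨A₀, hA₀, hI₀⟩ := hcase
    haveI := ptm_quotChar_normal N hN (1 : GQ →* (ZMod P.p)ˣ)
    have htop : ptm_quotChar N hN (1 : GQ →* (ZMod P.p)ˣ) = ⊤ := by
      refine ptm_subgroup_eq_top _ E ?_ ?_
      · intro σ hσ x
        rw [hE σ hσ x, MonoidHom.one_apply, Units.val_one, one_smul, sub_self]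
        exact N.zero_mem
      · intro ℓ hℓ A hA τ hτ
        by_cases hℓp : ℓ = P.p
        · rw [hℓp] at hA hℓ
          obtain ⟨g, hg⟩ := ptm_inertia_conj hℓ A₀ A hA₀ hA
          have h1 : g * τ * g⁻¹ ∈ ptm_quotChar N hN (1 : GQ →* (ZMod P.p)ˣ) := by
            intro x
            rw [MonoidHom.one_apply, Units.val_one, one_smul]
            exact hI₀ _ (hg τ hτ) x
          have h2 := (ptm_quotChar_normal N hN (1 : GQ →* (ZMod P.p)ˣ)).conj_mem _ h1 g⁻¹
          have h3 : g⁻¹ * (g * τ * g⁻¹) * g⁻¹⁻¹ = τ := by group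
          rwa [h3] at h2
        · intro x
          rw [MonoidHom.one_apply, Units.val_one, one_smul]
          exact hI_Q ℓ hℓ hℓp A hA τ hτ x
    refine ⟨N, hN, hNbot, hNtop, fun σ x => ?_⟩
    have hσ : σ ∈ ptm_quotChar N hN (1 : GQ →* (ZMod P.p)ˣ) := by rw [htop]; trivial
    have := hσ x
    rwa [MonoidHom.one_apply, Units.val_one, one_smul] at this
  · -- Case 2: inertia over `p` acts trivially on `N`; then `N` consists of rational points
    exfalso
    push Not at hcase
    have hpN : ∀ A : ValuationSubring Qbar, A.LiesOverPrime P.p →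
        ∀ σ ∈ A.inertiaSubgroupIn ℚ, ∀ x ∈ N, σ • x = x := by
      intro A hA σ hσ x hx
      obtain ⟨T, hTQ, hTss⟩ := hB P A hA
      set Ts : Submodule (ZMod P.p) (s13_V P) := AddSubgroup.toZModSubmodule P.p T with hTs
      have hTtop : Ts ≠ ⊤ := by
        intro h
        have hT : T = ⊤ := by
          ext y
          have : y ∈ Ts := by rw [h]; trivial
          exact ⟨fun _ => trivial, fun _ => this⟩
        rcases hTss hT N hN with h0 | h1
        · exact hNbot h0
        · exact hNtop h1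
      have hTle : ¬ Ts ≤ N := by
        intro h
        obtain ⟨σ', hσ', y, hy⟩ := hcase A hA
        exact hy (h (hTQ σ' hσ' y))
      have hTbot : Ts ≠ ⊥ := by
        intro h
        apply hTle
        rw [h]
        exact bot_le
      have hTcard : Nat.card Ts = P.p := ptm_card_line hcard Ts hTbot hTtop
      have hne : N ≠ Ts := fun h => hTle h.ge
      have hcompl := ptm_isCompl_of_ne hcard N Ts hNcard hTcard hne
      have h1 : σ • x - x ∈ N ⊓ Ts := ⟨N.sub_mem (hN σ x hx) hx, hTQ σ hσ x⟩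
      rw [hcompl.inf_eq_bot, Submodule.mem_bot] at h1
      exact sub_eq_zero.1 h1
    haveI := ptm_fixLine_normal N hN
    have htop1 : ptm_fixLine GQ N = ⊤ := by
      refine ptm_subgroup_eq_top _ E ?_ ?_
      · intro σ hσ x _
        exact hE σ hσ x
      · intro ℓ hℓ A hA τ hτ
        by_cases hℓp : ℓ = P.p
        · rw [hℓp] at hA
          exact hpN A hA τ hτ
        · exact hI_N ℓ hℓ hℓp A hA τ hτ
    obtain ⟨n₀, hn₀, hne, -⟩ := ptm_exists_generator N hNcard
    apply hne
    apply hD P n₀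
    intro σ
    have hσ : σ ∈ ptm_fixLine GQ N := by rw [htop1]; trivial
    exact hσ n₀ hn₀

end Fermat.Agent.Lib.Mz
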