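/-
Moonshot M1 (S13): proof of the interface statement (A) `s13_IfaceCard` (`#E[p](Q̄) = p²` for the
Frey curve) from helper3's `ent_natCard_torsionBy` (Lib/EN) and the discriminant of the Frey curve.
-/
import Mathlib
import Fermat.Agent.Lib.S13.Iface
import Fermat.Agent.Lib.EN.Torsion

set_option autoImplicit false
set_option linter.unusedVariables false
set_option linter.style.haveILetI false

namespace Fermat.Agent.Lib.Mz

open WeierstrassCurve Fermat.Agent.Lib.S13 Fermat.Agent.Lib.EN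

local notation "Qbar" => AlgebraicClosure ℚ

/-- The discriminant of the Frey curve `y² + xy = x³ + ((b^p − 1 − a^p)/4) x² − (a^p b^p/16) x`. -/
theorem ptm_freyCurve_Δ (P : FreyPackage) :
    P.freyCurve.Δ
      = ((P.a : ℚ) ^ P.p * (P.b : ℚ) ^ P.p * ((P.a : ℚ) ^ P.p + (P.b : ℚ) ^ P.p)) ^ 2 / 2 ^ 8 := by
  unfold FreyPackage.freyCurve
  simp only [WeierstrassCurve.Δ, WeierstrassCurve.b₂, WeierstrassCurve.b₄, WeierstrassCurve.b₆,
    WeierstrassCurve.b₈]
  ring

theorem ptm_freyCurve_Δ_ne_zero (P : FreyPackage) : P.freyCurve.Δ ≠ 0 := by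
  rw [ptm_freyCurve_Δ]
  have ha : (P.a : ℚ) ≠ 0 := by exact_mod_cast P.ha0
  have hb : (P.b : ℚ) ≠ 0 := by exact_mod_cast P.hb0
  have hc : (P.c : ℚ) ≠ 0 := by exact_mod_cast P.hc0
  have hsum : (P.a : ℚ) ^ P.p + (P.b : ℚ) ^ P.p = (P.c : ℚ) ^ P.p := by exact_mod_cast P.hFLT
  rw [hsum]
  positivity

/-- The Frey curve over `Q̄` is an elliptic curve. -/
theorem ptm_freyCurve_isElliptic (P : FreyPackage) :
    (P.freyCurve.map (algebraMap ℚ Qbar)).IsElliptic := by
  refine ⟨?_⟩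
  rw [WeierstrassCurve.map_Δ]
  exact (isUnit_iff_ne_zero.2 (ptm_freyCurve_Δ_ne_zero P)).map _

/-- **Interface (A)**: `#E[p](Q̄) = p²` for the Frey curve. -/
theorem ptm_ifaceCard : s13_IfaceCard := by
  intro P
  haveI := ptm_freyCurve_isElliptic P
  exact ent_natCard_torsionBy (P.freyCurve.map (algebraMap ℚ Qbar)) P.p P.hppos

end Fermat.Agent.Lib.Mz
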