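/-
Moonshot M1 (S13): proof of the interface statement (E) `s13_IfaceMinkowski` of `Lib/S13/Iface`
(Minkowski for normal subgroups of `G_ℚ` containing ONE inertia subgroup over each prime), from
`ptm_subgroup_eq_top` and the conjugacy of inertia subgroups `ptm_inertia_conj`.
-/
import Mathlib
import Fermat.Agent.Lib.S13.Iface
import Fermat.Agent.Lib.Mz.Minkowski
import Fermat.Agent.Lib.Mz.ValConj

set_option autoImplicit false
set_option linter.unusedVariables false
set_option linter.style.haveILetI false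

namespace Fermat.Agent.Lib.Mz

open Fermat.Agent.Lib.S13

/-- **Interface (E)**: Minkowski. -/
theorem ptm_ifaceMinkowski : s13_IfaceMinkowski := by
  intro H hH hlev hin
  haveI := hH
  obtain ⟨L, hLfin, hL⟩ := hlev
  refine ptm_subgroup_eq_top H L hL ?_
  intro ℓ hℓ A hA τ hτ
  obtain ⟨A₀, hA₀, hI₀⟩ := hin ℓ hℓ
  obtain ⟨g, hg⟩ := ptm_inertia_conj hℓ A₀ A hA₀ hA
  have h1 : g * τ * g⁻¹ ∈ H := hI₀ (hg τ hτ)
  have h2 := hH.conj_mem _ h1 g⁻¹
  have h3 : g⁻¹ * (g * τ * g⁻¹) * g⁻¹⁻¹ = τ := by group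
  rwa [h3] at h2

end Fermat.Agent.Lib.Mz
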