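/-
Moonshot M1 (S13): proof of the product formula interface `s13_IfacePF` (Lib/S13/IfacePF) by
wiring three landed results:
* helper4's multiplication pairs `(enc_a, enc_b)` (Lib/EN/MulRec, Pointwise: coprime, `a_n` monic of
  degree `n²`, `deg b_n = n² − 1`, pointwise formula at all points);
* helper3's abstract functional equation `ent_feq` (Lib/EN/FunEq: `b(0)² = a₄^{N−1} lc(a)²`);
* helper9's `enq_b_eval_zero` (Lib/EN/PFSquare: `b_n(0) = n² (∏_{ξ ∈ S} ξ)²` for odd `n`).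
-/
import Mathlib
import Fermat.Agent.Lib.S13.IfacePF
import Fermat.Agent.Lib.EN.FunEq
import Fermat.Agent.Lib.EN.PFSquare

set_option autoImplicit false
set_option linter.unusedVariables false
set_option linter.style.haveILetI false

namespace Fermat.Agent.Lib.Mz

open Polynomial WeierstrassCurve WeierstrassCurve.Affine
open Fermat.Agent.Lib.EN Fermat.Agent.Lib.S13 Fermat.Agent.Lib.Frey

/-- The discriminant of the Legendre-type model `Y² = X (X − δ) (X − ε)`. -/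
theorem ptm_fl_curve_Δ {K : Type*} [Field K] (δ ε : K) :
    (fl_curve δ ε).Δ = 16 * δ ^ 2 * ε ^ 2 * (δ - ε) ^ 2 := by
  simp only [WeierstrassCurve.Δ, WeierstrassCurve.b₂, WeierstrassCurve.b₄, WeierstrassCurve.b₆,
    WeierstrassCurve.b₈, fl_curve_a₁, fl_curve_a₂, fl_curve_a₃, fl_curve_a₄, fl_curve_a₆]
  ring

theorem ptm_fl_curve_Δ_ne_zero {K : Type*} [Field K] [CharZero K] {δ ε : K} (hδ : δ ≠ 0)
    (hε : ε ≠ 0) (hδε : δ ≠ ε) : (fl_curve δ ε).Δ ≠ 0 := by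
  rw [ptm_fl_curve_Δ]
  have h16 : (16 : K) ≠ 0 := by norm_num
  exact mul_ne_zero (mul_ne_zero (mul_ne_zero h16 (pow_ne_zero 2 hδ)) (pow_ne_zero 2 hε))
    (pow_ne_zero 2 (sub_ne_zero.mpr hδε))

/-- **(PF), step (3)**: `b_n(0)² = a₄^{n² − 1}` for odd `n` on a curve with `a₃ = a₆ = 0`. -/
theorem ptm_b_eval_zero_sq {K : Type*} [Field K] [DecidableEq K] [IsAlgClosed K] [CharZero K]
    (W : WeierstrassCurve K) [W.IsElliptic] (h3 : W.a₃ = 0) (h6 : W.a₆ = 0) (n : ℕ)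
    (hn : Odd n) : (enc_b W n).eval 0 ^ 2 = W.a₄ ^ (n ^ 2 - 1) := by
  have hΔ : W.Δ ≠ 0 := (WeierstrassCurve.IsElliptic.isUnit (W := W)).ne_zero
  have hn0 : 0 < n := hn.pos
  obtain ⟨hcop, hmon, hda, hdb, hlc⟩ := (enc_Inv_all W hΔ n).1
  have hlt : (enc_b W n).natDegree < n ^ 2 := by
    rw [hdb]
    have : 0 < n ^ 2 := pow_pos hn0 2
    omega
  have key := ent_feq W h3 h6 n hn (n ^ 2) (enc_a W n) (enc_b W n) hcop hda hlt
    (enc_b W n).roots.toFinset ?_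
  · rw [key, hmon.leadingCoeff, one_pow, mul_one]
  · rintro P x₀ ⟨y₀, h, rfl⟩ hx₀
    have hb0 : enc_b W n ≠ 0 := enc_b_ne_zero W hΔ hn0
    have hne : (enc_b W n).eval x₀ ≠ 0 := by
      intro h0
      apply hx₀
      rw [Multiset.mem_toFinset, mem_roots hb0]
      exact h0
    refine ⟨hne, ?_⟩
    have hnP : n • Point.some x₀ y₀ h ≠ 0 := by
      intro h0
      exact hne ((enc_nsmul_eq_zero_iff W hΔ h n).1 h0)
    rcases hQ : n • Point.some x₀ y₀ h with _ | ⟨x', y', h'⟩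
    · exact absurd hQ hnP
    · exact ⟨x', ⟨y', h', rfl⟩, enc_nsmul_some W hΔ h n hQ⟩

/-- **Interface (PF)**: the product formula for the abscissae of the nonzero `n`-torsion points of
`Y² = X (X − δ) (X − ε)`, `n` odd. -/
theorem ptm_ifacePF : s13_IfacePF := by
  intro K _ _ _ _ δ ε hδ hε hδε n hn S hS
  have hΔ : (fl_curve δ ε).Δ ≠ 0 := ptm_fl_curve_Δ_ne_zero hδ hε hδε
  haveI : (fl_curve δ ε).IsElliptic := ⟨isUnit_iff_ne_zero.2 hΔ⟩
  have h1 := enq_b_eval_zero (fl_curve δ ε).toAffine hΔ n hn S hS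
  have h2 := ptm_b_eval_zero_sq (fl_curve δ ε) rfl rfl n hn
  rw [h1, fl_curve_a₄] at h2
  exact h2

end Fermat.Agent.Lib.Mz
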