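/-
Moonshot M1 (S13), support for (SS): rationality and integrality of Galois-stable products.
* `ptm_exists_rat_of_fixed` : an element of `Q̄` fixed by `G_ℚ` is rational;
* `ptm_prod_fixed` : the product of a `G_ℚ`-stable finite subset of `Q̄` is fixed by `G_ℚ`;
* `ptm_vQ_int_of_fixed` : its valuation (`ford_vQ A`, normalised by `v p = 1`) is an integer;
* `ptm_vQ_prod_le_neg_one` : if moreover the set is nonempty and all its elements have negative
  valuation, the valuation of the product is `≤ −1`.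
-/
import Mathlib
import Fermat.Agent.Lib.Frey.Ord
import Fermat.Agent.Lib.CFT.RamBridge

set_option autoImplicit false
set_option linter.unusedVariables false
set_option linter.unusedSectionVars false
set_option linter.style.haveILetI false

namespace Fermat.Agent.Lib.Mz

open Fermat.Agent.Lib.Frey Fermat.Agent.Lib.CFT

local notation "Qbar" => AlgebraicClosure ℚ
local notation "GQ" => (AlgebraicClosure ℚ ≃ₐ[ℚ] AlgebraicClosure ℚ)

/-- An element of `Q̄` fixed by `G_ℚ` is rational. -/
theorem ptm_exists_rat_of_fixed (x : Qbar) (h : ∀ σ : GQ, σ x = x) :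
    ∃ r : ℚ, algebraMap ℚ Qbar r = x := by
  haveI : IsGalois ℚ Qbar := cfg_isGalois_QBar
  exact (InfiniteGalois.mem_range_algebraMap_iff_fixed (k := ℚ) (K := Qbar) x).2 h

/-- The product of a `G_ℚ`-stable finite subset of `Q̄` is `G_ℚ`-fixed. -/
theorem ptm_prod_fixed (S : Finset Qbar) (hS : ∀ σ : GQ, ∀ ξ ∈ S, σ ξ ∈ S) (σ : GQ) :
    σ (∏ ξ ∈ S, ξ) = ∏ ξ ∈ S, ξ := by
  classical
  rw [map_prod]
  have himg : S.image (fun ξ => σ ξ) = S := by
    apply Finset.eq_of_subset_of_card_le
    · intro y hy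
      obtain ⟨ξ, hξ, rfl⟩ := Finset.mem_image.1 hy
      exact hS σ ξ hξ
    · rw [Finset.card_image_of_injective _ σ.injective]
  conv_rhs => rw [← himg]
  rw [Finset.prod_image (fun a _ b _ hab => σ.injective hab)]

variable {p : ℕ} (A : ValuationSubring Qbar) (hp : p.Prime) (hA : (p : Qbar) ∈ A.nonunits)

/-- The valuation of a nonzero `G_ℚ`-fixed element is an integer. -/
theorem ptm_vQ_int_of_fixed (x : Qbar) (hx : x ≠ 0) (h : ∀ σ : GQ, σ x = x) :
    ∃ n : ℤ, ford_vQ A hp hA x = ((n : ℚ) : WithTop ℚ) := by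
  obtain ⟨r, rfl⟩ := ptm_exists_rat_of_fixed x h
  have hr : r ≠ 0 := by
    intro h0
    apply hx
    rw [h0, map_zero]
  exact ⟨padicValRat p r, ford_vQ_algebraMap hp hA hr⟩

/-- A nonempty product of elements of negative valuation has negative valuation. -/
theorem ptm_vQ_prod_neg (S : Finset Qbar) (hne : S.Nonempty)
    (hneg : ∀ ξ ∈ S, ford_vQ A hp hA ξ < 0) : ford_vQ A hp hA (∏ ξ ∈ S, ξ) < 0 := by
  classical
  induction S using Finset.induction_on with
  | empty => exact absurd hne (by simp)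
  | insert a T haT ih =>
    rw [Finset.prod_insert haT, AddValuation.map_mul]
    have ha : ford_vQ A hp hA a < 0 := hneg a (Finset.mem_insert_self a T)
    rcases T.eq_empty_or_nonempty with hT | hT
    · rw [hT, Finset.prod_empty, AddValuation.map_one, add_zero]
      exact ha
    · have hT' := ih hT (fun ξ hξ => hneg ξ (Finset.mem_insert_of_mem hξ))
      calc ford_vQ A hp hA a + ford_vQ A hp hA (∏ ξ ∈ T, ξ)
          ≤ ford_vQ A hp hA a + 0 := by gcongr
        _ = ford_vQ A hp hA a := add_zero _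
        _ < 0 := ha

/-- **Integrality of Galois-stable products**: a nonempty `G_ℚ`-stable finite set of elements of
negative valuation has a product of valuation `≤ −1`. -/
theorem ptm_vQ_prod_le_neg_one (S : Finset Qbar) (hS : ∀ σ : GQ, ∀ ξ ∈ S, σ ξ ∈ S)
    (hne : S.Nonempty) (hneg : ∀ ξ ∈ S, ford_vQ A hp hA ξ < 0) :
    ford_vQ A hp hA (∏ ξ ∈ S, ξ) ≤ ((-1 : ℚ) : WithTop ℚ) := by
  have hlt := ptm_vQ_prod_neg A hp hA S hne hneg
  have hx0 : (∏ ξ ∈ S, ξ) ≠ 0 := by
    intro h0
    rw [h0, AddValuation.map_zero] at hlt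
    exact absurd hlt (not_lt.2 le_top)
  obtain ⟨n, hn⟩ := ptm_vQ_int_of_fixed A hp hA _ hx0 (ptm_prod_fixed S hS)
  rw [hn] at hlt ⊢
  have h1 : ((n : ℚ) : WithTop ℚ) < ((0 : ℚ) : WithTop ℚ) := hlt
  have h2 : (n : ℚ) < 0 := WithTop.coe_lt_coe.1 h1
  have h3 : n < 0 := by exact_mod_cast h2
  have h4 : n ≤ -1 := by omega
  have h5 : (n : ℚ) ≤ -1 := by exact_mod_cast h4
  exact WithTop.coe_le_coe.2 h5

end Fermat.Agent.Lib.Mz
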