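/-
Moonshot M1 (S13): S13 reduced to its remaining local inputs.  With S05 (unramified outside `2p`)
and S14 (vanishing of admissible extensions) plugged into `ptm_S13_of_inputs`, the statement S13
follows from
* `hcard` : `#E[p](Q̄) = p²`;
* `h2a`, `h2b` : the two local properties at `2` (Tate curve);
* `hp` : the local dichotomy at `p` (ordinary type / supersingular type).
-/
import Mathlib
import Fermat.Agent.S05
import Fermat.Agent.S14
import Fermat.Agent.Lib.Mz.S13Model

set_option autoImplicit false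
set_option linter.unusedVariables false
set_option linter.unusedSectionVars false
set_option linter.style.haveILetI false

namespace Fermat.Agent.Lib.Mz

open WeierstrassCurve WeierstrassCurve.Affine WeierstrassCurve.Affine.Point ExtCitation
open FreyPackage

local notation "Qbar" => AlgebraicClosure ℚ
local notation "GQ" => (AlgebraicClosure ℚ ≃ₐ[ℚ] AlgebraicClosure ℚ)

/-- **S13 from its local inputs at `2` and `p` and the count `#E[p] = p²`.** -/
theorem ptm_S13_of_local_inputs (P : FreyPackage)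
    (hcard : Nat.card (Submodule.torsionBy ℤ (P.freyCurve⁄Qbar).Point P.p) = P.p ^ 2)
    (h2a : ∀ A : ValuationSubring Qbar, A.LiesOverPrime 2 →
      ∀ σ ∈ A.inertiaSubgroupIn ℚ, ∀ x : Submodule.torsionBy ℤ (P.freyCurve⁄Qbar).Point P.p,
        σ ^ P.p • x = x)
    (h2b : ∀ A : ValuationSubring Qbar, A.LiesOverPrime 2 →
      (∃ x : Submodule.torsionBy ℤ (P.freyCurve⁄Qbar).Point P.p,
        x ≠ 0 ∧ ∀ σ ∈ A.decompositionSubgroup ℚ, σ • x = x) →
      ∀ σ ∈ A.inertiaSubgroupIn ℚ, ∀ y : Submodule.torsionBy ℤ (P.freyCurve⁄Qbar).Point P.p,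
        σ • y = y)
    (hp : haveI : Fact P.p.Prime := ⟨P.pp⟩
      ∀ A : ValuationSubring Qbar, A.LiesOverPrime P.p →
        ptm_OrdAt P.p (Submodule.torsionBy ℤ (P.freyCurve⁄Qbar).Point P.p) A ∨
        ptm_SsAt P.p (Submodule.torsionBy ℤ (P.freyCurve⁄Qbar).Point P.p) A)
    (hred : ¬ GaloisRepIsIrreducible (K := AlgebraicClosure ℚ) ℚ P.freyCurve P.p) :
    HasGaloisStableCofixedLine (K := AlgebraicClosure ℚ) ℚ P.freyCurve P.p := by
  haveI : Fact P.p.Prime := ⟨P.pp⟩
  have h3 : 3 ≤ P.p := le_trans (by norm_num) P.hp5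
  exact ptm_S13_of_inputs P hcard
    (fun q hq hq2 hqp => Fermat.Agent.S05.result P hq hq2 hqp)
    h2a h2b hp (Fermat.Agent.S14.result h3) hred

end Fermat.Agent.Lib.Mz
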